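import Mathlib
import Fermat.Agent.Lib.Cheb.H943.Bridge
import Fermat.Agent.Lib.Cheb.H943.Frob

/-!
# Row LT, tower T7, leaf T7.04 (helper231): Frobenius elements and norms of primes

OFF-MAIN.  On the landed library `Lib/Cheb/H943` (plain modules on main).

For a finite normal extension `L₀ ⊆ ℚ̄` of `ℚ`, a maximal ideal `P` of `𝓞 L₀` over the prime `p`,
a valuation subring `A` of `ℚ̄` over `P` and a Frobenius element `τ` at `A`:

* `absNorm_le_of_pow_fixes231` : if `τ ^ j` fixes `L₀` pointwise, then `N P ≤ p ^ j`;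
* `pow_fixes_of_absNorm231` : if the inertia group of `P` is trivial and `N P = p ^ k`, then
  `τ ^ k` fixes `L₀` pointwise.
-/

set_option autoImplicit false
set_option linter.unusedSectionVars false
set_option linter.style.haveILetI false

open NumberField
open scoped Pointwise

namespace Fermat.Agent.LT.T7.H231

open Fermat.Agent.Lib.Cheb.Spec Fermat.Agent.Lib.Cheb.H943

section Residue

variable {A : ValuationSubring Qb} {τ : GQ} {p : ℕ}

/-- The iterates of a Frobenius element act on the residue field of `A` as the iterates of the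
`p`-th power map. -/
theorem residue_pow_smul231 (hτ : A.IsFrobeniusAt τ p) (k : ℕ) (a : A) :
    IsLocalRing.residue A
        ((⟨τ, hτ.mem_decompositionSubgroup⟩ : A.decompositionSubgroup ℚ) ^ k • a)
      = (IsLocalRing.residue A a) ^ (p ^ k) := by
  induction k generalizing a with
  | zero => simp
  | succ k ih =>
    rw [pow_succ', mul_smul, IsLocalRing.ResidueField.residue_smul, hτ.smul_residue_eq, ih,
      ← pow_mul, pow_succ]

/-- The value of `t ^ k • a` in `ℚ̄`. -/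
theorem coe_pow_smul231 (hτd : τ ∈ A.decompositionSubgroup ℚ) (k : ℕ) (a : A) :
    (((⟨τ, hτd⟩ : A.decompositionSubgroup ℚ) ^ k • a : A) : Qb) = (τ ^ k) (a : Qb) := by
  induction k generalizing a with
  | zero => simp
  | succ k ih =>
    rw [pow_succ', mul_smul, pow_succ', AlgEquiv.mul_apply, ← ih]
    rfl

/-- `τ ^ k y - y ^ (p ^ k)` lies in the maximal ideal of `A`, for `y ∈ A`. -/
theorem pow_sub_pow_mem_nonunits231 (hτ : A.IsFrobeniusAt τ p) (k : ℕ) {y : Qb} (hy : y ∈ A) :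
    (τ ^ k) y - y ^ (p ^ k) ∈ A.nonunits := by
  have h1 := residue_pow_smul231 hτ k ⟨y, hy⟩
  rw [← map_pow, ← sub_eq_zero, ← map_sub, IsLocalRing.residue_eq_zero_iff,
    ← ValuationSubring.coe_mem_nonunits_iff] at h1
  have h2 : ((((⟨τ, hτ.mem_decompositionSubgroup⟩ : A.decompositionSubgroup ℚ) ^ k •
      (⟨y, hy⟩ : A) - (⟨y, hy⟩ : A) ^ (p ^ k) : A)) : Qb) = (τ ^ k) y - y ^ (p ^ k) := by
    push_cast
    rw [coe_pow_smul231 hτ.mem_decompositionSubgroup k ⟨y, hy⟩]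
  rw [← h2]
  exact h1

end Residue

section Field

variable (L₀ : IntermediateField ℚ Qb)

/-- A maximal ideal of `𝓞 L₀` is not `⊥`. -/
theorem ne_bot_of_isMaximal231 [NumberField L₀] {P : Ideal (𝓞 L₀)} (hP : P.IsMaximal) : P ≠ ⊥ :=
  Ring.ne_bot_of_isMaximal_of_not_isField hP (RingOfIntegers.not_isField L₀)

/-- If `x ^ n - x ∈ P` for all `x`, then `N P ≤ n` (`P` maximal, `1 < n`). -/
theorem absNorm_le_of_forall_pow_sub_mem231 [NumberField L₀] {P : Ideal (𝓞 L₀)}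
    (hP : P.IsMaximal) {n : ℕ} (hn : 1 < n) (h : ∀ x : 𝓞 L₀, x ^ n - x ∈ P) :
    Ideal.absNorm P ≤ n := by
  classical
  letI : Field (𝓞 L₀ ⧸ P) := Ideal.Quotient.field P
  haveI : Finite (𝓞 L₀ ⧸ P) := Ideal.finiteQuotientOfFreeOfNeBot P (ne_bot_of_isMaximal231 L₀ hP)
  haveI : Fintype (𝓞 L₀ ⧸ P) := Fintype.ofFinite _
  have hroot : ∀ y : 𝓞 L₀ ⧸ P, y ^ n - y = 0 := by
    intro y
    obtain ⟨x, rfl⟩ := Ideal.Quotient.mk_surjective y
    rw [← map_pow, ← map_sub]
    exact Ideal.Quotient.eq_zero_iff_mem.mpr (h x)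
  set f : Polynomial (𝓞 L₀ ⧸ P) := Polynomial.X ^ n - Polynomial.X with hf
  have hdeg : f.natDegree = n := by
    rw [hf]
    exact FiniteField.X_pow_card_sub_X_natDegree_eq _ hn
  have hf0 : f ≠ 0 := by
    intro h0
    rw [h0, Polynomial.natDegree_zero] at hdeg
    omega
  have hsub : (Finset.univ : Finset (𝓞 L₀ ⧸ P)) ⊆ f.roots.toFinset := by
    intro y _
    rw [Multiset.mem_toFinset, Polynomial.mem_roots hf0, Polynomial.IsRoot.def, hf]
    simpa using hroot y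
  have hcard : Fintype.card (𝓞 L₀ ⧸ P) ≤ n := by
    calc Fintype.card (𝓞 L₀ ⧸ P) = (Finset.univ : Finset (𝓞 L₀ ⧸ P)).card := rfl
      _ ≤ f.roots.toFinset.card := Finset.card_le_card hsub
      _ ≤ Multiset.card f.roots := Multiset.toFinset_card_le _
      _ ≤ f.natDegree := Polynomial.card_roots' f
      _ = n := hdeg
  have habs : Ideal.absNorm P = Nat.card (𝓞 L₀ ⧸ P) := by
    rw [Ideal.absNorm_apply]
    rfl
  rw [habs, Nat.card_eq_fintype_card]
  exact hcard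

variable {L₀}

/-- `x ^ N P - x ∈ P` (Fermat's little theorem in the residue field). -/
theorem pow_absNorm_sub_mem231 [NumberField L₀] {P : Ideal (𝓞 L₀)} (hP : P.IsMaximal)
    (hP0 : P ≠ ⊥) (x : 𝓞 L₀) : x ^ Ideal.absNorm P - x ∈ P := by
  classical
  letI : Field (𝓞 L₀ ⧸ P) := Ideal.Quotient.field P
  haveI : Finite (𝓞 L₀ ⧸ P) := Ideal.finiteQuotientOfFreeOfNeBot P hP0
  haveI : Fintype (𝓞 L₀ ⧸ P) := Fintype.ofFinite _
  have habs : Ideal.absNorm P = Fintype.card (𝓞 L₀ ⧸ P) := by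
    rw [Ideal.absNorm_apply, ← Nat.card_eq_fintype_card]
    rfl
  rw [← Ideal.Quotient.eq_zero_iff_mem, map_sub, map_pow, habs, FiniteField.pow_card, sub_self]

variable [NumberField L₀] [Normal ℚ L₀]

/-- **(b)** If `τ ^ j` fixes `L₀` pointwise, then `N P ≤ p ^ j`. -/
theorem absNorm_le_of_pow_fixes231 {p : ℕ} (hp : p.Prime) {P : Ideal (𝓞 L₀)} (hP : P.IsMaximal)
    {A : ValuationSubring Qb} (hA : ∀ x ∈ P, emb L₀ x ∈ A.nonunits)
    {τ : GQ} (hτ : A.IsFrobeniusAt τ p) {j : ℕ} (hj : 0 < j)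
    (hfix : ∀ x : L₀, (τ ^ j) (x : Qb) = (x : Qb)) : Ideal.absNorm P ≤ p ^ j := by
  refine absNorm_le_of_forall_pow_sub_mem231 L₀ hP (Nat.one_lt_pow hj.ne' hp.one_lt) fun x => ?_
  apply mem_of_emb_mem_nonunits L₀ hP hA
  have h1 := pow_sub_pow_mem_nonunits231 hτ j (emb_mem L₀ A x)
  rw [emb_apply, hfix] at h1
  have h2 : emb L₀ (x ^ p ^ j - x) = -(((x : L₀) : Qb) - ((x : L₀) : Qb) ^ p ^ j) := by
    rw [map_sub, map_pow, emb_apply]
    ring
  rw [h2]
  exact neg_mem h1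

/-- **(a)** If the inertia group of `P` is trivial and `N P = p ^ k`, then `τ ^ k` fixes `L₀`
pointwise. -/
theorem pow_fixes_of_absNorm231 {p : ℕ} {P : Ideal (𝓞 L₀)} (hP : P.IsMaximal)
    {A : ValuationSubring Qb} (hA : ∀ x ∈ P, emb L₀ x ∈ A.nonunits)
    {τ : GQ} (hτ : A.IsFrobeniusAt τ p) (hI : InertiaTrivial L₀ P) {k : ℕ}
    (hk : Ideal.absNorm P = p ^ k) (x : L₀) : (τ ^ k) (x : Qb) = (x : Qb) := by
  have hmem : ∀ y : 𝓞 L₀, (AlgEquiv.restrictNormalHom L₀ (τ ^ k)) • y - y ∈ P := by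
    intro y
    apply mem_of_emb_mem_nonunits L₀ hP hA
    have h1 := pow_sub_pow_mem_nonunits231 hτ k (emb_mem L₀ A y)
    have h2 : emb L₀ (y ^ (p ^ k) - y) ∈ A.nonunits := by
      apply hA
      rw [← hk]
      exact pow_absNorm_sub_mem231 hP (ne_bot_of_isMaximal231 L₀ hP) y
    have h3 : emb L₀ ((AlgEquiv.restrictNormalHom L₀ (τ ^ k)) • y - y)
        = ((τ ^ k) (emb L₀ y) - (emb L₀ y) ^ (p ^ k)) + emb L₀ (y ^ (p ^ k) - y) := by
      rw [map_sub, emb_restrict_smul, map_sub, map_pow]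
      ring
    rw [h3]
    exact add_mem h1 h2
  have hone : AlgEquiv.restrictNormalHom L₀ (τ ^ k) = 1 := hI _ hmem
  have h4 := AlgEquiv.restrictNormal_commutes (τ ^ k) L₀ x
  have h5 : (AlgEquiv.restrictNormal (τ ^ k) L₀) x = x := by
    have : AlgEquiv.restrictNormal (τ ^ k) L₀ = AlgEquiv.restrictNormalHom L₀ (τ ^ k) := rfl
    rw [this, hone]
    rfl
  rw [h5] at h4
  exact h4.symm

end Field

end Fermat.Agent.LT.T7.H231
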