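import Mathlib
import Fermat.Agent.LT.H130.Wall
import Fermat.Agent.LT.A2.H230.FieldE

/-!
# Row LT, tower T7, leaf T7.04 (helper231): group theory in `GL₂(𝔽₃)` and the fields `F ⊂ E`

OFF-MAIN.  Mathlib + `H130/Wall.lean` + `A2/H230/FieldE.lean` (helper230@fcbe7a695,
byte-identical copy).

* `inQ8_of_sq231`, `inQ8_cube231`, `inQ8_sq_of_det_ne231` : `SL₂(𝔽₃)/Q8` has order `3`,
  `GL₂(𝔽₃)/SL₂(𝔽₃)` has order `2` and the elements of determinant `-1` have square in `Q8`;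
* `ord_cases231` : `ordQ8 (g ^ ordSL g) = 1`, or `det g = 1`, `g ∉ Q8` and
  `ordQ8 (g ^ ordSL g) = 3`;
* `normal_fixedField231` : the fixed field of a normal subgroup is normal;
* `inQ8_of_fixes231`, `fixes_of_inQ8_231`, `fixes_fieldF_of_det231` : the dictionary between
  `ρ σ` and the action of `σ` on `E`, `F`.
-/

set_option autoImplicit false
set_option linter.unusedSectionVars false
set_option linter.style.haveILetI false

open scoped MatrixGroups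
open NumberField

noncomputable section

namespace Fermat.Agent.LT.T7.H231

open Fermat.Agent.LT.H130 Fermat.Agent.LT.A2.H230

local notation "Γℚ" => (AlgebraicClosure ℚ ≃ₐ[ℚ] AlgebraicClosure ℚ)

/-! ## Entries -/

theorem sq_entries231 : ∀ a b c d : ZMod 3, a * d - b * c = 1 →
    Q8E230 (a * a + b * c) (a * b + b * d) (c * a + d * c) (c * b + d * d) → Q8E230 a b c d := by
  decide

theorem cube_entries231 : ∀ a b c d : ZMod 3, a * d - b * c = 1 →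
    Q8E230 ((a * a + b * c) * a + (a * b + b * d) * c) ((a * a + b * c) * b + (a * b + b * d) * d)
      ((c * a + d * c) * a + (c * b + d * d) * c) ((c * a + d * c) * b + (c * b + d * d) * d) := by
  decide

theorem sq_entries_neg231 : ∀ a b c d : ZMod 3, a * d - b * c ≠ 0 → a * d - b * c ≠ 1 →
    Q8E230 (a * a + b * c) (a * b + b * d) (c * a + d * c) (c * b + d * d) := by
  decide

/-! ## Elements of `GL₂(𝔽₃)` -/

theorem det_eq_one_iff231 (g : GL (Fin 2) (ZMod 3)) :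
    Matrix.GeneralLinearGroup.det g = 1 ↔
      (g : Matrix (Fin 2) (Fin 2) (ZMod 3)) 0 0 * (g : Matrix (Fin 2) (Fin 2) (ZMod 3)) 1 1
        - (g : Matrix (Fin 2) (Fin 2) (ZMod 3)) 0 1 * (g : Matrix (Fin 2) (Fin 2) (ZMod 3)) 1 0
        = 1 := by
  rw [Units.ext_iff, Matrix.GeneralLinearGroup.val_det_apply, Matrix.det_fin_two]
  rfl

theorem det_entries_ne_zero231 (g : GL (Fin 2) (ZMod 3)) :
    (g : Matrix (Fin 2) (Fin 2) (ZMod 3)) 0 0 * (g : Matrix (Fin 2) (Fin 2) (ZMod 3)) 1 1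
        - (g : Matrix (Fin 2) (Fin 2) (ZMod 3)) 0 1 * (g : Matrix (Fin 2) (Fin 2) (ZMod 3)) 1 0
        ≠ 0 := by
  have h : IsUnit (g : Matrix (Fin 2) (Fin 2) (ZMod 3)).det :=
    (Matrix.isUnit_iff_isUnit_det _).mp g.isUnit
  rw [Matrix.det_fin_two] at h
  exact h.ne_zero

theorem hasEntries_sq231 (P : ZMod 3 → ZMod 3 → ZMod 3 → ZMod 3 → Prop)
    (g : GL (Fin 2) (ZMod 3)) :
    HasEntries230 P (g ^ 2) ↔
      P ((g : Matrix (Fin 2) (Fin 2) (ZMod 3)) 0 0 * (g : Matrix (Fin 2) (Fin 2) (ZMod 3)) 0 0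
          + (g : Matrix (Fin 2) (Fin 2) (ZMod 3)) 0 1 * (g : Matrix (Fin 2) (Fin 2) (ZMod 3)) 1 0)
        ((g : Matrix (Fin 2) (Fin 2) (ZMod 3)) 0 0 * (g : Matrix (Fin 2) (Fin 2) (ZMod 3)) 0 1
          + (g : Matrix (Fin 2) (Fin 2) (ZMod 3)) 0 1 * (g : Matrix (Fin 2) (Fin 2) (ZMod 3)) 1 1)
        ((g : Matrix (Fin 2) (Fin 2) (ZMod 3)) 1 0 * (g : Matrix (Fin 2) (Fin 2) (ZMod 3)) 0 0
          + (g : Matrix (Fin 2) (Fin 2) (ZMod 3)) 1 1 * (g : Matrix (Fin 2) (Fin 2) (ZMod 3)) 1 0)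
        ((g : Matrix (Fin 2) (Fin 2) (ZMod 3)) 1 0 * (g : Matrix (Fin 2) (Fin 2) (ZMod 3)) 0 1
          + (g : Matrix (Fin 2) (Fin 2) (ZMod 3)) 1 1 * (g : Matrix (Fin 2) (Fin 2) (ZMod 3)) 1 1)
      := by
  unfold HasEntries230
  simp [pow_two, Matrix.mul_apply, Fin.sum_univ_two]

theorem hasEntries_cube231 (P : ZMod 3 → ZMod 3 → ZMod 3 → ZMod 3 → Prop)
    (g : GL (Fin 2) (ZMod 3)) :
    HasEntries230 P (g ^ 3) ↔
      P (((g : Matrix (Fin 2) (Fin 2) (ZMod 3)) 0 0 * (g : Matrix (Fin 2) (Fin 2) (ZMod 3)) 0 0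
            + (g : Matrix (Fin 2) (Fin 2) (ZMod 3)) 0 1 * (g : Matrix (Fin 2) (Fin 2) (ZMod 3)) 1 0)
            * (g : Matrix (Fin 2) (Fin 2) (ZMod 3)) 0 0
          + ((g : Matrix (Fin 2) (Fin 2) (ZMod 3)) 0 0 * (g : Matrix (Fin 2) (Fin 2) (ZMod 3)) 0 1
            + (g : Matrix (Fin 2) (Fin 2) (ZMod 3)) 0 1 * (g : Matrix (Fin 2) (Fin 2) (ZMod 3)) 1 1)
            * (g : Matrix (Fin 2) (Fin 2) (ZMod 3)) 1 0)
        (((g : Matrix (Fin 2) (Fin 2) (ZMod 3)) 0 0 * (g : Matrix (Fin 2) (Fin 2) (ZMod 3)) 0 0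
            + (g : Matrix (Fin 2) (Fin 2) (ZMod 3)) 0 1 * (g : Matrix (Fin 2) (Fin 2) (ZMod 3)) 1 0)
            * (g : Matrix (Fin 2) (Fin 2) (ZMod 3)) 0 1
          + ((g : Matrix (Fin 2) (Fin 2) (ZMod 3)) 0 0 * (g : Matrix (Fin 2) (Fin 2) (ZMod 3)) 0 1
            + (g : Matrix (Fin 2) (Fin 2) (ZMod 3)) 0 1 * (g : Matrix (Fin 2) (Fin 2) (ZMod 3)) 1 1)
            * (g : Matrix (Fin 2) (Fin 2) (ZMod 3)) 1 1)
        (((g : Matrix (Fin 2) (Fin 2) (ZMod 3)) 1 0 * (g : Matrix (Fin 2) (Fin 2) (ZMod 3)) 0 0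
            + (g : Matrix (Fin 2) (Fin 2) (ZMod 3)) 1 1 * (g : Matrix (Fin 2) (Fin 2) (ZMod 3)) 1 0)
            * (g : Matrix (Fin 2) (Fin 2) (ZMod 3)) 0 0
          + ((g : Matrix (Fin 2) (Fin 2) (ZMod 3)) 1 0 * (g : Matrix (Fin 2) (Fin 2) (ZMod 3)) 0 1
            + (g : Matrix (Fin 2) (Fin 2) (ZMod 3)) 1 1 * (g : Matrix (Fin 2) (Fin 2) (ZMod 3)) 1 1)
            * (g : Matrix (Fin 2) (Fin 2) (ZMod 3)) 1 0)
        (((g : Matrix (Fin 2) (Fin 2) (ZMod 3)) 1 0 * (g : Matrix (Fin 2) (Fin 2) (ZMod 3)) 0 0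
            + (g : Matrix (Fin 2) (Fin 2) (ZMod 3)) 1 1 * (g : Matrix (Fin 2) (Fin 2) (ZMod 3)) 1 0)
            * (g : Matrix (Fin 2) (Fin 2) (ZMod 3)) 0 1
          + ((g : Matrix (Fin 2) (Fin 2) (ZMod 3)) 1 0 * (g : Matrix (Fin 2) (Fin 2) (ZMod 3)) 0 1
            + (g : Matrix (Fin 2) (Fin 2) (ZMod 3)) 1 1 * (g : Matrix (Fin 2) (Fin 2) (ZMod 3)) 1 1)
            * (g : Matrix (Fin 2) (Fin 2) (ZMod 3)) 1 1) := by
  unfold HasEntries230
  simp [pow_succ, Matrix.mul_apply, Fin.sum_univ_two]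

/-- `g ∈ SL₂(𝔽₃)`, `g² ∈ Q8` ⟹ `g ∈ Q8`. -/
theorem inQ8_of_sq231 {g : GL (Fin 2) (ZMod 3)} (hdet : Matrix.GeneralLinearGroup.det g = 1)
    (h : InQ8 (g ^ 2)) : InQ8 g := by
  rw [inQ8_iff230] at h ⊢
  rw [hasEntries_sq231] at h
  exact sq_entries231 _ _ _ _ ((det_eq_one_iff231 g).mp hdet) h

/-- `g ∈ SL₂(𝔽₃)` ⟹ `g³ ∈ Q8`. -/
theorem inQ8_cube231 {g : GL (Fin 2) (ZMod 3)} (hdet : Matrix.GeneralLinearGroup.det g = 1) :
    InQ8 (g ^ 3) := by
  rw [inQ8_iff230, hasEntries_cube231]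
  exact cube_entries231 _ _ _ _ ((det_eq_one_iff231 g).mp hdet)

/-- `det g ≠ 1` ⟹ `g² ∈ Q8`. -/
theorem inQ8_sq_of_det_ne231 {g : GL (Fin 2) (ZMod 3)}
    (hdet : Matrix.GeneralLinearGroup.det g ≠ 1) : InQ8 (g ^ 2) := by
  rw [inQ8_iff230, hasEntries_sq231]
  exact sq_entries_neg231 _ _ _ _ (det_entries_ne_zero231 g)
    (fun h => hdet ((det_eq_one_iff231 g).mpr h))

/-- The residue degree in `E/F`: `ordQ8 (g ^ ordSL g)` is `1`, or it is `3` and then `det g = 1`,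
`g ∉ Q8`. -/
theorem ord_cases231 (g : GL (Fin 2) (ZMod 3)) :
    ordQ8 (g ^ ordSL g) = 1 ∨
      (Matrix.GeneralLinearGroup.det g = 1 ∧ ¬ InQ8 g ∧ ordQ8 (g ^ ordSL g) = 3) := by
  classical
  by_cases hdet : Matrix.GeneralLinearGroup.det g = 1
  · have h1 : ordSL g = 1 := by unfold ordSL; rw [if_pos hdet]
    rw [h1, pow_one]
    by_cases hq : InQ8 g
    · left
      unfold ordQ8
      rw [if_pos hq]
    · right
      refine ⟨hdet, hq, ?_⟩
      have hq2 : ¬ InQ8 (g ^ 2) := fun h => hq (inQ8_of_sq231 hdet h)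
      unfold ordQ8
      rw [if_neg hq, if_neg hq2]
  · left
    have h1 : ordSL g = 2 := by unfold ordSL; rw [if_neg hdet]
    rw [h1]
    unfold ordQ8
    rw [if_pos (inQ8_sq_of_det_ne231 hdet)]

/-! ## The fields -/

/-- The fixed field of a normal subgroup of `Gal(ℚ̄/ℚ)` is normal over `ℚ`. -/
theorem normal_fixedField231 (H : Subgroup Γℚ) [hH : H.Normal] :
    Normal ℚ (IntermediateField.fixedField H) := by
  haveI := isGalois_Qbar230
  have key : @Normal ℚ (IntermediateField.fixedField H) _ _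
      (IntermediateField.algebra' (IntermediateField.fixedField H)) := by
    rw [IntermediateField.normal_iff_forall_map_le']
    intro σ x hx
    rw [IntermediateField.mem_map] at hx
    obtain ⟨y, hy, rfl⟩ := hx
    rw [IntermediateField.mem_fixedField_iff] at hy ⊢
    intro h hh
    have h1 : σ⁻¹ * h * σ ∈ H := by
      have := hH.conj_mem h hh σ⁻¹
      simpa using this
    have h2 := hy _ h1
    have h3 : h (σ y) = σ ((σ⁻¹ * h * σ) y) := by
      simp [AlgEquiv.mul_apply]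
    show h (σ y) = σ y
    rw [h3, h2]
  convert key
  exact Subsingleton.elim _ _

instance normal_Q8grp231 : Q8grp230.Normal where
  conj_mem := by
    intro g hg h
    rw [mem_Q8grp230] at hg ⊢
    refine ⟨?_, ?_⟩
    · rw [map_mul, map_mul, map_inv, mul_comm, ← mul_assoc, inv_mul_cancel, one_mul]
      exact hg.1
    · rw [conj_pow, hg.2, mul_one, mul_inv_cancel]

theorem normal_fieldE231 (ρ : Γℚ →* GL (Fin 2) (ZMod 3)) : Normal ℚ (fieldE ρ) := by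
  haveI : (subQ8 ρ).Normal := by
    rw [subQ8_eq_comap230]
    exact Subgroup.Normal.comap inferInstance ρ
  exact normal_fixedField231 (subQ8 ρ)

theorem normal_fieldF231 (ρ : Γℚ →* GL (Fin 2) (ZMod 3)) : Normal ℚ (fieldF ρ) := by
  haveI : (subSL ρ).Normal := by
    unfold subSL
    infer_instance
  exact normal_fixedField231 (subSL ρ)

/-- If `σ` fixes `E` pointwise, then `ρ σ ∈ Q8`. -/
theorem inQ8_of_fixes231 {ρ : Γℚ →* GL (Fin 2) (ZMod 3)} (hρ : Continuous ρ) {σ : Γℚ}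
    (h : ∀ x : fieldE ρ, σ (x : AlgebraicClosure ℚ) = (x : AlgebraicClosure ℚ)) :
    InQ8 (ρ σ) := by
  have h1 : σ ∈ (fieldE ρ).fixingSubgroup := by
    rw [IntermediateField.mem_fixingSubgroup_iff]
    intro x hx
    exact h ⟨x, hx⟩
  rw [fixingSubgroup_fieldE230 hρ, subQ8_eq_comap230] at h1
  exact h1

/-- If `ρ σ ∈ Q8`, then `σ` fixes `E` pointwise. -/
theorem fixes_of_inQ8_231 {ρ : Γℚ →* GL (Fin 2) (ZMod 3)} {σ : Γℚ} (h : InQ8 (ρ σ))
    (x : fieldE ρ) : σ (x : AlgebraicClosure ℚ) = (x : AlgebraicClosure ℚ) := by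
  have h1 : σ ∈ subQ8 ρ := Subgroup.subset_closure h
  have h2 := x.2
  unfold fieldE at h2
  rw [IntermediateField.mem_fixedField_iff] at h2
  exact h2 σ h1

/-- If `det (ρ σ) = 1`, then `σ` fixes `F` pointwise. -/
theorem fixes_fieldF_of_det231 {ρ : Γℚ →* GL (Fin 2) (ZMod 3)} {σ : Γℚ}
    (h : Matrix.GeneralLinearGroup.det (ρ σ) = 1)
    (x : fieldF ρ) : σ (x : AlgebraicClosure ℚ) = (x : AlgebraicClosure ℚ) := by
  have h1 : σ ∈ subSL ρ := by
    unfold subSL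
    rw [MonoidHom.mem_ker]
    exact h
  have h2 := x.2
  unfold fieldF at h2
  rw [IntermediateField.mem_fixedField_iff] at h2
  exact h2 σ h1

end Fermat.Agent.LT.T7.H231

end
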