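import Mathlib
import Fermat.Agent.LT.T7.Spec

/-!
# Row LT, tower T7, leaf T7.04 (helper231): places of a number field over prime numbers

OFF-MAIN.  Mathlib + `T7/Spec.lean` (for `PlaceImage`).

* `exists_prime_mem231` / `prime_unique231` : the prime number under a finite place;
* `overSet231`, `overSet_finite231` : the places over a finite set of prime numbers;
* `placeMap231` : the image of a place under a ring automorphism, `placeImage_placeMap231`,
  `placeImage_unique231`, `placeImage_prime231`;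
* `absNorm_eq_prime_pow231` : `N v = p ^ k`, `0 < k`.
-/

set_option autoImplicit false
set_option linter.unusedSectionVars false
set_option linter.style.haveILetI false

open IsDedekindDomain NumberField

namespace Fermat.Agent.LT.T7.H231

open Fermat.Agent.LT.T7

section Places

variable {K : Type} [Field K] [NumberField K]

/-- Two different prime numbers do not lie in the same place. -/
theorem prime_unique231 (v : HeightOneSpectrum (𝓞 K)) {p q : ℕ} (hp : p.Prime) (hq : q.Prime)
    (hpv : ((p : ℕ) : 𝓞 K) ∈ v.asIdeal) (hqv : ((q : ℕ) : 𝓞 K) ∈ v.asIdeal) : p = q := by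
  by_contra hne
  have hcop : Nat.Coprime p q := (Nat.coprime_primes hp hq).mpr hne
  have h1 : ((Nat.gcd p q : ℤ) : 𝓞 K) ∈ v.asIdeal := by
    rw [Nat.gcd_eq_gcd_ab]
    push_cast
    exact v.asIdeal.add_mem (v.asIdeal.mul_mem_right _ hpv) (v.asIdeal.mul_mem_right _ hqv)
  rw [hcop] at h1
  simp only [Nat.cast_one, Int.cast_one] at h1
  exact v.isPrime.ne_top ((Ideal.eq_top_iff_one _).mpr h1)

/-- Every finite place lies over a prime number. -/
theorem exists_prime_mem231 (v : HeightOneSpectrum (𝓞 K)) :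
    ∃ p : ℕ, p.Prime ∧ ((p : ℕ) : 𝓞 K) ∈ v.asIdeal := by
  have hmem : ((Ideal.absNorm v.asIdeal : ℕ) : 𝓞 K) ∈ v.asIdeal := Ideal.absNorm_mem v.asIdeal
  have hne1 : Ideal.absNorm v.asIdeal ≠ 1 := by
    rw [Ne, Ideal.absNorm_eq_one_iff]
    exact v.isPrime.ne_top
  have hne0 : Ideal.absNorm v.asIdeal ≠ 0 := by
    rw [Ne, Ideal.absNorm_eq_zero_iff]
    exact v.ne_bot
  -- a prime ideal containing a natural number `n ≥ 2` contains a prime number
  have key : ∀ n : ℕ, 2 ≤ n → ((n : ℕ) : 𝓞 K) ∈ v.asIdeal →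
      ∃ p : ℕ, p.Prime ∧ ((p : ℕ) : 𝓞 K) ∈ v.asIdeal := by
    intro n
    induction n using Nat.strong_induction_on with
    | _ n ih =>
      intro hn2 hn
      obtain ⟨p, hp, m, hm⟩ := Nat.exists_prime_and_dvd (show n ≠ 1 by omega)
      have hmem' : ((p : ℕ) : 𝓞 K) * ((m : ℕ) : 𝓞 K) ∈ v.asIdeal := by
        rw [← Nat.cast_mul, ← hm]
        exact hn
      rcases v.isPrime.mem_or_mem hmem' with h | h
      · exact ⟨p, hp, h⟩
      · have hm0 : m ≠ 0 := by
          rintro rfl
          rw [mul_zero] at hm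
          omega
        have hm1 : m ≠ 1 := by
          rintro rfl
          simp only [Nat.cast_one] at h
          exact v.isPrime.ne_top ((Ideal.eq_top_iff_one _).mpr h)
        have hlt : m < n := by
          rw [hm]
          exact lt_mul_of_one_lt_left (Nat.pos_of_ne_zero hm0) hp.one_lt
        exact ih m hlt (by omega) h
  exact key _ (by omega) hmem

/-- The norm of a place over `p` is a positive power of `p`. -/
theorem absNorm_eq_prime_pow231 (v : HeightOneSpectrum (𝓞 K)) {p : ℕ} (hp : p.Prime)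
    (hpv : ((p : ℕ) : 𝓞 K) ∈ v.asIdeal) :
    ∃ k : ℕ, 0 < k ∧ Ideal.absNorm v.asIdeal = p ^ k := by
  have hle : Ideal.span {((p : ℕ) : 𝓞 K)} ≤ v.asIdeal := by
    rw [Ideal.span_le, Set.singleton_subset_iff]
    exact hpv
  have hdvd : Ideal.absNorm v.asIdeal ∣ Ideal.absNorm (Ideal.span {((p : ℕ) : 𝓞 K)}) :=
    Ideal.absNorm_dvd_absNorm_of_le hle
  have hnorm : Ideal.absNorm (Ideal.span {((p : ℕ) : 𝓞 K)}) = p ^ Module.finrank ℚ K := by
    rw [Ideal.absNorm_span_singleton]
    have h1 : ((p : ℕ) : 𝓞 K) = algebraMap ℤ (𝓞 K) (p : ℤ) := by simp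
    rw [h1, Algebra.norm_algebraMap_of_basis (RingOfIntegers.basis K)]
    rw [Int.natAbs_pow, Int.natAbs_natCast, ← RingOfIntegers.rank K,
      Module.finrank_eq_card_basis (RingOfIntegers.basis K)]
  rw [hnorm] at hdvd
  obtain ⟨k, -, hk⟩ := (Nat.dvd_prime_pow hp).mp hdvd
  refine ⟨k, ?_, hk⟩
  rcases Nat.eq_zero_or_pos k with h0 | h0
  · exfalso
    rw [h0, pow_zero, Ideal.absNorm_eq_one_iff] at hk
    exact v.isPrime.ne_top hk
  · exact h0

/-- The places over a finite set of prime numbers. -/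
def overSet231 (K : Type) [Field K] [NumberField K] (S : Finset ℕ) :
    Set (HeightOneSpectrum (𝓞 K)) :=
  {v | ∃ p ∈ S, p.Prime ∧ ((p : ℕ) : 𝓞 K) ∈ v.asIdeal}

theorem overSet_finite231 (S : Finset ℕ) : (overSet231 K S).Finite := by
  have h : overSet231 K S ⊆ ⋃ p ∈ (S.filter Nat.Prime : Finset ℕ),
      {v : HeightOneSpectrum (𝓞 K) | v.asIdeal ∣ Ideal.span {((p : ℕ) : 𝓞 K)}} := by
    rintro v ⟨p, hpS, hp, hpv⟩
    simp only [Set.mem_iUnion]
    refine ⟨p, Finset.mem_filter.mpr ⟨hpS, hp⟩, ?_⟩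
    show v.asIdeal ∣ Ideal.span {((p : ℕ) : 𝓞 K)}
    rw [Ideal.dvd_iff_le, Ideal.span_le, Set.singleton_subset_iff]
    exact hpv
  refine Set.Finite.subset ?_ h
  refine Set.Finite.biUnion (Finset.finite_toSet _) fun p hp => ?_
  have hp' : p.Prime := (Finset.mem_filter.mp hp).2
  refine Ideal.finite_factors ?_
  rw [Ne, Ideal.zero_eq_bot, Ideal.span_singleton_eq_bot]
  exact_mod_cast hp'.ne_zero

/-- A finite set of places containing all places over `S`. -/
noncomputable def overFinset231 (K : Type) [Field K] [NumberField K] (S : Finset ℕ) :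
    Finset (HeightOneSpectrum (𝓞 K)) :=
  (overSet_finite231 (K := K) S).toFinset

theorem mem_overFinset231 {S : Finset ℕ} {v : HeightOneSpectrum (𝓞 K)} :
    v ∈ overFinset231 K S ↔ ∃ p ∈ S, p.Prime ∧ ((p : ℕ) : 𝓞 K) ∈ v.asIdeal := by
  unfold overFinset231
  rw [Set.Finite.mem_toFinset]
  rfl

/-- A prime number under a place (a choice). -/
noncomputable def primeOf231 (v : HeightOneSpectrum (𝓞 K)) : ℕ :=
  (exists_prime_mem231 v).choose

theorem primeOf_prime231 (v : HeightOneSpectrum (𝓞 K)) : (primeOf231 v).Prime :=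
  (exists_prime_mem231 v).choose_spec.1

theorem primeOf_mem231 (v : HeightOneSpectrum (𝓞 K)) :
    ((primeOf231 v : ℕ) : 𝓞 K) ∈ v.asIdeal :=
  (exists_prime_mem231 v).choose_spec.2

theorem primeOf_eq231 (v : HeightOneSpectrum (𝓞 K)) {p : ℕ} (hp : p.Prime)
    (hpv : ((p : ℕ) : 𝓞 K) ∈ v.asIdeal) : primeOf231 v = p :=
  prime_unique231 v (primeOf_prime231 v) hp (primeOf_mem231 v) hpv

/-- If `p` is not the prime under any place of `T`, no place over `p` lies in `T`. -/
theorem not_mem_of_prime_not_mem_image231 [DecidableEq ℕ]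
    {T : Finset (HeightOneSpectrum (𝓞 K))}
    {p : ℕ} (hp : p.Prime) (hpT : p ∉ T.image primeOf231) {v : HeightOneSpectrum (𝓞 K)}
    (hpv : ((p : ℕ) : 𝓞 K) ∈ v.asIdeal) : v ∉ T := by
  intro hv
  apply hpT
  rw [Finset.mem_image]
  exact ⟨v, hv, primeOf_eq231 v hp hpv⟩

/-! ### The image of a place under an automorphism -/

/-- The image `e(v)` of the place `v` under the ring automorphism `e` of `K`. -/
noncomputable def placeMap231 (e : K ≃+* K) (v : HeightOneSpectrum (𝓞 K)) :
    HeightOneSpectrum (𝓞 K) where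
  asIdeal := v.asIdeal.comap (RingOfIntegers.mapRingEquiv e.symm : 𝓞 K →+* 𝓞 K)
  isPrime := Ideal.comap_isPrime _ _
  ne_bot := by
    intro h
    apply v.ne_bot
    rw [eq_bot_iff]
    intro x hx
    have h1 : RingOfIntegers.mapRingEquiv e x ∈
        v.asIdeal.comap (RingOfIntegers.mapRingEquiv e.symm : 𝓞 K →+* 𝓞 K) := by
      rw [Ideal.mem_comap]
      have : (RingOfIntegers.mapRingEquiv e.symm : 𝓞 K →+* 𝓞 K) (RingOfIntegers.mapRingEquiv e x)
          = x := by
        apply RingOfIntegers.ext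
        simp
      rw [this]
      exact hx
    rw [h, Ideal.mem_bot] at h1
    have h2 : x = 0 := by
      have := congrArg (RingOfIntegers.mapRingEquiv e).symm h1
      simpa using this
    rw [h2]
    exact Ideal.zero_mem _

theorem mem_placeMap231 (e : K ≃+* K) (v : HeightOneSpectrum (𝓞 K)) (y : 𝓞 K) :
    y ∈ (placeMap231 e v).asIdeal ↔ RingOfIntegers.mapRingEquiv e.symm y ∈ v.asIdeal :=
  Iff.rfl

theorem placeImage_placeMap231 (e : K ≃+* K) (v : HeightOneSpectrum (𝓞 K)) :
    PlaceImage e v (placeMap231 e v) := by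
  intro x y hxy
  rw [mem_placeMap231]
  have : RingOfIntegers.mapRingEquiv e.symm y = x := by
    apply RingOfIntegers.ext
    simp [hxy]
  rw [this]

theorem placeImage_unique231 {e : K ≃+* K} {v v' : HeightOneSpectrum (𝓞 K)}
    (h : PlaceImage e v v') : v' = placeMap231 e v := by
  apply HeightOneSpectrum.ext
  ext y
  rw [mem_placeMap231]
  have hy : (y : K) = e ((RingOfIntegers.mapRingEquiv e.symm y : 𝓞 K) : K) := by simp
  exact (h _ y hy).symm

/-- Every place is the image of a place. -/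
theorem exists_placeImage231 (e : K ≃+* K) (v' : HeightOneSpectrum (𝓞 K)) :
    ∃ v : HeightOneSpectrum (𝓞 K), PlaceImage e v v' := by
  refine ⟨placeMap231 e.symm v', ?_⟩
  intro x y hxy
  rw [mem_placeMap231]
  have : RingOfIntegers.mapRingEquiv e.symm.symm x = y := by
    apply RingOfIntegers.ext
    simp [hxy]
  rw [this]

/-- A place and its image lie over the same prime number. -/
theorem placeImage_prime231 {e : K ≃+* K} {v v' : HeightOneSpectrum (𝓞 K)}
    (h : PlaceImage e v v') (p : ℕ) :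
    ((p : ℕ) : 𝓞 K) ∈ v.asIdeal ↔ ((p : ℕ) : 𝓞 K) ∈ v'.asIdeal := by
  apply h
  simp

end Places

end Fermat.Agent.LT.T7.H231
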