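import Mathlib
import Fermat.Agent.LT.T7.Spec
import Fermat.Agent.LT.T7.H231.Frob
import Fermat.Agent.LT.T7.H231.Places
import Fermat.Agent.LT.T7.H231.Gal
import Fermat.Agent.S37.H99.FrobAt

/-!
# Row LT, tower T7, leaf T7.04 (helper231): the Frobenius dictionary for `E/F`, one direction

OFF-MAIN.

`resDeg_eq_three231`: let `w` be a place of `E = fieldE ρ` over the place `v` of `F = fieldF ρ`,
over the prime number `p`, with trivial inertia group in `E/ℚ`, `A` a valuation subring of `ℚ̄`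
over `w` (hence over `v`), `σ` a Frobenius element at `A`, `g = ρ σ`.  If `det g = 1` and
`g ∉ Q8` (i.e. `ordQ8 (g ^ ordSL g) = 3`), then `N w = (N v) ^ f` forces `f = 3`.

`exists_frob_over231`: a valuation subring over a given place and a Frobenius element at it.
-/

set_option autoImplicit false
set_option linter.unusedSectionVars false
set_option linter.style.haveILetI false

open IsDedekindDomain NumberField
open scoped MatrixGroups

noncomputable section

namespace Fermat.Agent.LT.T7.H231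

open Fermat.Agent.LT.H130 Fermat.Agent.LT.A2.H230 Fermat.Agent.LT.T7
open Fermat.Agent.Lib.Cheb.Spec Fermat.Agent.Lib.Cheb.H943

local notation "Γℚ" => (AlgebraicClosure ℚ ≃ₐ[ℚ] AlgebraicClosure ℚ)

/-- A valuation subring of `ℚ̄` over a given place of `L₀ ⊆ ℚ̄` (over the prime `p`) and a
Frobenius element at it. -/
theorem exists_frob_over231 (L₀ : IntermediateField ℚ Qb) [NumberField L₀]
    (w : HeightOneSpectrum (𝓞 L₀)) {p : ℕ} (hp : p.Prime)
    (hpw : ((p : ℕ) : 𝓞 L₀) ∈ w.asIdeal) :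
    ∃ (A : ValuationSubring Qb) (σ : Γℚ), A.LiesOverPrime p ∧ A.IsFrobeniusAt σ p ∧
      ∀ x ∈ w.asIdeal, emb L₀ x ∈ A.nonunits := by
  obtain ⟨A, hA⟩ := exists_valuationSubring_over L₀ w.asIdeal w.isPrime.ne_top
  have hLO : A.LiesOverPrime p := by
    have h1 := hA _ hpw
    rw [map_natCast] at h1
    exact h1
  obtain ⟨σ, hσ⟩ := Fermat.Agent.S37.H99.exists_isFrobeniusAt p hp A hLO
  exact ⟨A, σ, hLO, hσ, hA⟩

section Dict

variable {ρ : Γℚ →* GL (Fin 2) (ZMod 3)}

/-- **The dictionary, one direction.** -/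
theorem resDeg_eq_three231 (hρ : Continuous ρ) [NumberField (fieldF ρ)]
    [NumberField (fieldE ρ)] {p : ℕ} (hp : p.Prime)
    (v : HeightOneSpectrum (𝓞 (fieldF ρ))) (w : HeightOneSpectrum (𝓞 (fieldE ρ)))
    (hpv : ((p : ℕ) : 𝓞 (fieldF ρ)) ∈ v.asIdeal) (hpw : ((p : ℕ) : 𝓞 (fieldE ρ)) ∈ w.asIdeal)
    {A : ValuationSubring Qb}
    (hAv : ∀ x ∈ v.asIdeal, emb (fieldF ρ) x ∈ A.nonunits)
    (hAw : ∀ x ∈ w.asIdeal, emb (fieldE ρ) x ∈ A.nonunits)
    {σ : Γℚ} (hσ : A.IsFrobeniusAt σ p)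
    (hI : InertiaTrivial (fieldE ρ) w.asIdeal)
    (hdet : Matrix.GeneralLinearGroup.det (ρ σ) = 1) (hq : ¬ InQ8 (ρ σ))
    {f : ℕ} (hf : Ideal.absNorm w.asIdeal = Ideal.absNorm v.asIdeal ^ f) : f = 3 := by
  haveI := normal_fieldE231 ρ
  haveI := normal_fieldF231 ρ
  -- the norms
  obtain ⟨kv, hkv0, hkv⟩ := absNorm_eq_prime_pow231 v hp hpv
  obtain ⟨kw, hkw0, hkw⟩ := absNorm_eq_prime_pow231 w hp hpw
  -- `N v ≤ p`
  have h1 : Ideal.absNorm v.asIdeal ≤ p ^ 1 :=
    absNorm_le_of_pow_fixes231 hp v.isMaximal hAv hσ one_pos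
      (fun x => by rw [pow_one]; exact fixes_fieldF_of_det231 hdet x)
  have hkv1 : kv = 1 := by
    rw [hkv] at h1
    have := (Nat.pow_le_pow_iff_right hp.one_lt).mp h1
    omega
  -- `N w ≤ p ^ 3`
  have h3 : Ideal.absNorm w.asIdeal ≤ p ^ 3 := by
    refine absNorm_le_of_pow_fixes231 hp w.isMaximal hAw hσ (by norm_num) (fun x => ?_)
    refine fixes_of_inQ8_231 ?_ x
    rw [map_pow]
    exact inQ8_cube231 hdet
  have hkw3 : kw ≤ 3 := by
    rw [hkw] at h3
    exact (Nat.pow_le_pow_iff_right hp.one_lt).mp h3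
  -- `σ ^ kw` fixes `E`
  have h4 : InQ8 ((ρ σ) ^ kw) := by
    rw [← map_pow]
    exact inQ8_of_fixes231 hρ (pow_fixes_of_absNorm231 w.isMaximal hAw hσ hI hkw)
  have hkw : kw = 3 := by
    have hcases : kw = 1 ∨ kw = 2 ∨ kw = 3 := by omega
    rcases hcases with h | h | h
    · exfalso
      rw [h, pow_one] at h4
      exact hq h4
    · exfalso
      rw [h] at h4
      exact hq (inQ8_of_sq231 hdet h4)
    · exact h
  -- conclusion
  have h5 : p ^ 3 = p ^ f := by
    have e1 : Ideal.absNorm w.asIdeal = p ^ 3 := by rw [‹Ideal.absNorm w.asIdeal = p ^ kw›, hkw]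
    have e2 : Ideal.absNorm v.asIdeal = p := by rw [hkv, hkv1, pow_one]
    rw [e1, e2] at hf
    exact hf
  exact (Nat.pow_right_injective hp.two_le h5).symm

end Dict

end Fermat.Agent.LT.T7.H231

end
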