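import Mathlib
import Fermat.Agent.LT.T7.Spec
import Fermat.Agent.LT.T7.H231.Gal

/-!
# Row LT, tower T7, leaf T7.05 `DictEFC` (helper231, spare): the fields `F ⊂ E`

OFF-MAIN.

* group theory of `GL₂(𝔽₃) ⊃ SL₂(𝔽₃) ⊃ Q8`: `[SL₂(𝔽₃) : Q8] = 3` (`relIndex_Q8_SL231`: the
  quotient has exponent `3`, its order divides `48` and it is not trivial),
  `ordQ8 g = ordSL g * ordQ8 (g ^ ordSL g)` (`ordQ8_eq_mul231`), `ordQ8 g` is the least `k ≥ 1`
  with `g ^ k ∈ Q8` (`inQ8_pow_ordQ8_231`, `ordQ8_min231`);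
* `F = fieldF ρ ⊆ E = fieldE ρ` (`fieldF_le_fieldE231`), the algebra structure of the inclusion
  (`algFE231`), `E / F` is Galois of degree `3` for `ρ` continuous and surjective
  (`isCycExt_FE231`).
-/

set_option autoImplicit false
set_option linter.unusedSectionVars false
set_option linter.style.haveILetI false

open scoped MatrixGroups
open NumberField

noncomputable section

namespace Fermat.Agent.LT.T7.H231

open Fermat.Agent.LT.H130 Fermat.Agent.LT.A2.H230 Fermat.Agent.LT.T7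

local notation "Γℚ" => (AlgebraicClosure ℚ ≃ₐ[ℚ] AlgebraicClosure ℚ)

/-! ## Group theory -/

/-- `g ^ ordQ8 g ∈ Q8`. -/
theorem inQ8_pow_ordQ8_231 (g : GL (Fin 2) (ZMod 3)) : InQ8 (g ^ ordQ8 g) := by
  classical
  unfold ordQ8
  by_cases h1 : InQ8 g
  · rw [if_pos h1, pow_one]
    exact h1
  · rw [if_neg h1]
    by_cases h2 : InQ8 (g ^ 2)
    · rw [if_pos h2]
      exact h2
    · rw [if_neg h2]
      by_cases hdet : Matrix.GeneralLinearGroup.det g = 1
      · exact inQ8_cube231 hdet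
      · exact absurd (inQ8_sq_of_det_ne231 hdet) h2

theorem ordQ8_pos231 (g : GL (Fin 2) (ZMod 3)) : 0 < ordQ8 g := by
  classical
  unfold ordQ8
  split_ifs <;> norm_num

theorem ordQ8_le_three231 (g : GL (Fin 2) (ZMod 3)) : ordQ8 g ≤ 3 := by
  classical
  unfold ordQ8
  split_ifs <;> norm_num

/-- `ordQ8 g` is the least positive exponent `k` with `g ^ k ∈ Q8`. -/
theorem ordQ8_min231 {g : GL (Fin 2) (ZMod 3)} {k : ℕ} (hk : 0 < k) (hle : k ≤ ordQ8 g)
    (h : InQ8 (g ^ k)) : k = ordQ8 g := by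
  classical
  unfold ordQ8 at hle ⊢
  by_cases h1 : InQ8 g
  · rw [if_pos h1] at hle ⊢
    omega
  · rw [if_neg h1] at hle ⊢
    by_cases h2 : InQ8 (g ^ 2)
    · rw [if_pos h2] at hle ⊢
      have hcases : k = 1 ∨ k = 2 := by omega
      rcases hcases with rfl | rfl
      · rw [pow_one] at h
        exact absurd h h1
      · rfl
    · rw [if_neg h2] at hle ⊢
      have hcases : k = 1 ∨ k = 2 ∨ k = 3 := by omega
      rcases hcases with rfl | rfl | rfl
      · rw [pow_one] at h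
        exact absurd h h1
      · exact absurd h h2
      · rfl

/-- `ordQ8 g = ordSL g * ordQ8 (g ^ ordSL g)` (`GL₂(𝔽₃) / Q8 ≅ S₃`). -/
theorem ordQ8_eq_mul231 (g : GL (Fin 2) (ZMod 3)) :
    ordQ8 g = ordSL g * ordQ8 (g ^ ordSL g) := by
  classical
  by_cases hdet : Matrix.GeneralLinearGroup.det g = 1
  · have h1 : ordSL g = 1 := by unfold ordSL; rw [if_pos hdet]
    rw [h1, pow_one, one_mul]
  · have h1 : ordSL g = 2 := by unfold ordSL; rw [if_neg hdet]
    have h2 : InQ8 (g ^ 2) := inQ8_sq_of_det_ne231 hdet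
    have h3 : ¬ InQ8 g := fun h => hdet h.1
    have h4 : ordQ8 (g ^ 2) = 1 := by unfold ordQ8; rw [if_pos h2]
    have h5 : ordQ8 g = 2 := by unfold ordQ8; rw [if_neg h3, if_pos h2]
    rw [h1, h4, h5]

/-- `g ^ ordQ8 g = (g ^ ordSL g) ^ ordQ8 (g ^ ordSL g)`. -/
theorem pow_ordQ8_eq231 (g : GL (Fin 2) (ZMod 3)) :
    g ^ ordQ8 g = (g ^ ordSL g) ^ ordQ8 (g ^ ordSL g) := by
  rw [← pow_mul, ← ordQ8_eq_mul231]

/-- `SL₂(𝔽₃)` as a subgroup of `GL₂(𝔽₃)`. -/
def SLgrp231 : Subgroup (GL (Fin 2) (ZMod 3)) :=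
  (Matrix.GeneralLinearGroup.det : GL (Fin 2) (ZMod 3) →* (ZMod 3)ˣ).ker

theorem mem_SLgrp231 {g : GL (Fin 2) (ZMod 3)} :
    g ∈ SLgrp231 ↔ Matrix.GeneralLinearGroup.det g = 1 := MonoidHom.mem_ker

theorem Q8grp_le_SLgrp231 : Q8grp230 ≤ SLgrp231 := fun _ hg => mem_SLgrp231.mpr hg.1

/-- The unipotent element `[1, 1; 0, 1]`. -/
def u231 : GL (Fin 2) (ZMod 3) :=
  Matrix.GeneralLinearGroup.mkOfDetNeZero !![1, 1; 0, 1] (by decide)

theorem u_mem_SLgrp231 : u231 ∈ SLgrp231 := by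
  rw [mem_SLgrp231, det_eq_one_iff231]
  decide

theorem u_not_inQ8_231 : ¬ InQ8 u231 := by
  rw [inQ8_iff230]
  unfold HasEntries230
  decide

theorem card_GL231 : Nat.card (GL (Fin 2) (ZMod 3)) = 48 := by
  rw [Matrix.card_GL_field]
  simp [Fin.prod_univ_two, ZMod.card]

/-- `[SL₂(𝔽₃) : Q8] = 3`. -/
theorem relIndex_Q8_SL231 : Q8grp230.relIndex SLgrp231 = 3 := by
  classical
  haveI hfin : Finite (GL (Fin 2) (ZMod 3)) := Nat.finite_of_card_ne_zero (by rw [card_GL231]; norm_num)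
  haveI hN : (Q8grp230.subgroupOf SLgrp231).Normal := Subgroup.normal_subgroupOf
  -- the quotient is a `3`-group
  have hP : IsPGroup 3 (SLgrp231 ⧸ Q8grp230.subgroupOf SLgrp231) := by
    intro x
    refine ⟨1, ?_⟩
    obtain ⟨g, rfl⟩ := QuotientGroup.mk_surjective x
    rw [pow_one, ← QuotientGroup.mk_pow, QuotientGroup.eq_one_iff, Subgroup.mem_subgroupOf]
    show InQ8 (((g ^ 3 : SLgrp231) : GL (Fin 2) (ZMod 3)))
    rw [Subgroup.coe_pow]
    exact inQ8_cube231 (mem_SLgrp231.mp g.2)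
  haveI : Fact (Nat.Prime 3) := ⟨Nat.prime_three⟩
  obtain ⟨n, hn⟩ := (IsPGroup.iff_card (p := 3)).mp hP
  have hrel : Q8grp230.relIndex SLgrp231 = 3 ^ n := by
    rw [← hn]
    rfl
  -- it divides `48`
  have hdvd : 3 ^ n ∣ 48 := by
    rw [← hrel, ← card_GL231]
    exact (Subgroup.relIndex_dvd_card _ _).trans (Subgroup.card_subgroup_dvd_card _)
  have hn1 : n ≤ 1 := by
    by_contra hcon
    have h2 : 2 ≤ n := by omega
    have h9 : 3 ^ 2 ∣ 48 := (pow_dvd_pow 3 h2).trans hdvd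
    norm_num at h9
  -- it is not `1`
  have hn0 : n ≠ 0 := by
    intro h0
    rw [h0, pow_zero] at hrel
    have hle : SLgrp231 ≤ Q8grp230 := Subgroup.relIndex_eq_one.mp hrel
    exact u_not_inQ8_231 (hle u_mem_SLgrp231)
  have : n = 1 := by omega
  rw [hrel, this, pow_one]

/-! ## The subgroups of `Gal(ℚ̄/ℚ)` -/

variable (ρ : Γℚ →* GL (Fin 2) (ZMod 3))

theorem subSL_eq_comap231 : subSL ρ = SLgrp231.comap ρ := by
  unfold subSL SLgrp231
  exact (MonoidHom.comap_ker _ _).symm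

theorem subQ8_le_subSL231 : subQ8 ρ ≤ subSL ρ := by
  rw [subQ8_eq_comap230, subSL_eq_comap231]
  exact Subgroup.comap_mono Q8grp_le_SLgrp231

theorem ker_le_subSL231 : ρ.ker ≤ subSL ρ := (ker_le_subQ8_230 ρ).trans (subQ8_le_subSL231 ρ)

variable {ρ}

theorem isOpen_subSL231 (hρ : Continuous ρ) : IsOpen ((subSL ρ : Subgroup Γℚ) : Set Γℚ) :=
  Subgroup.isOpen_mono (ker_le_subSL231 ρ) (isOpen_ker230 hρ)

/-- `[ρ⁻¹(SL₂) : ρ⁻¹(Q8)] = 3`. -/
theorem relIndex_subQ8_subSL231 (hsurj : Function.Surjective ρ) :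
    (subQ8 ρ).relIndex (subSL ρ) = 3 := by
  rw [subQ8_eq_comap230, subSL_eq_comap231, Subgroup.relIndex_comap,
    Subgroup.map_comap_eq_self_of_surjective hsurj]
  exact relIndex_Q8_SL231

theorem finiteDimensional_fieldF231 (hρ : Continuous ρ) : FiniteDimensional ℚ (fieldF ρ) :=
  finiteDimensional_fixedField_of_isOpen230 _ (isOpen_subSL231 hρ)

/-- `F = fieldF ρ` is a number field. -/
theorem numberField_fieldF231 (hρ : Continuous ρ) : NumberField (fieldF ρ) :=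
  haveI := finiteDimensional_fieldF231 hρ
  { to_charZero := inferInstance, to_finiteDimensional := inferInstance }

/-- `[E : ℚ] = 3 [F : ℚ]`. -/
theorem finrank_fieldE_eq231 (hρ : Continuous ρ) (hsurj : Function.Surjective ρ) :
    Module.finrank ℚ (fieldE ρ) = 3 * Module.finrank ℚ (fieldF ρ) := by
  unfold fieldE fieldF
  rw [finrank_fixedField_of_isOpen230 _ (isOpen_subQ8_230 hρ),
    finrank_fixedField_of_isOpen230 _ (isOpen_subSL231 hρ),
    ← Subgroup.relIndex_mul_index (subQ8_le_subSL231 ρ), relIndex_subQ8_subSL231 hsurj]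

variable (ρ)

/-- `F ⊆ E`. -/
theorem fieldF_le_fieldE231 : fieldF ρ ≤ fieldE ρ :=
  IntermediateField.fixedField_le (subQ8_le_subSL231 ρ)

/-- The algebra structure of the inclusion `F ⊆ E`. -/
@[reducible] def algFE231 : Algebra (fieldF ρ) (fieldE ρ) :=
  (IntermediateField.inclusion (fieldF_le_fieldE231 ρ)).toRingHom.toAlgebra

theorem algFE_coe231 (x : fieldF ρ) :
    (((algFE231 ρ).algebraMap x : fieldE ρ) : AlgebraicClosure ℚ) = (x : AlgebraicClosure ℚ) :=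
  rfl

theorem isScalarTower_FE231 :
    letI := algFE231 ρ
    IsScalarTower ℚ (fieldF ρ) (fieldE ρ) := by
  letI := algFE231 ρ
  refine IsScalarTower.of_algebraMap_eq fun q => ?_
  exact ((IntermediateField.inclusion (fieldF_le_fieldE231 ρ)).commutes q).symm

variable {ρ}

/-- **`E / F` is Galois of degree `3`.** -/
theorem isCycExt_FE231 (hρ : Continuous ρ) (hsurj : Function.Surjective ρ)
    [NumberField (fieldF ρ)] [NumberField (fieldE ρ)] :
    letI := algFE231 ρ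
    IsCycExt (fieldF ρ) (fieldE ρ) 3 := by
  letI := algFE231 ρ
  haveI := isScalarTower_FE231 ρ
  haveI nE := normal_fieldE231 ρ
  haveI gE : IsGalois ℚ (fieldE ρ) := isGalois_iff.mpr ⟨inferInstance, nE⟩
  refine ⟨Nat.prime_three, IsGalois.tower_top_of_isGalois ℚ (fieldF ρ) (fieldE ρ), ?_⟩
  have h1 := Module.finrank_mul_finrank ℚ (fieldF ρ) (fieldE ρ)
  rw [finrank_fieldE_eq231 hρ hsurj] at h1
  have h2 : 0 < Module.finrank ℚ (fieldF ρ) := Module.finrank_pos
  have h3 : Module.finrank ℚ (fieldF ρ) * Module.finrank (fieldF ρ) (fieldE ρ)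
      = Module.finrank ℚ (fieldF ρ) * 3 := by rw [h1, mul_comm]
  exact Nat.eq_of_mul_eq_mul_left h2 h3

end Fermat.Agent.LT.T7.H231

end
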