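import Mathlib
import Fermat.Agent.LT.T7.Spec
import Fermat.Agent.LT.T7.H231.Dict
import Fermat.Agent.LT.T7.H231.DictEFFields

/-!
# Row LT, tower T7, leaf T7.05 `DictEFC` (helper231, spare): places and norms

OFF-MAIN.

* `placeUnder231 L₀ A` : the place of the number field `L₀ ⊆ ℚ̄` under the valuation subring `A`
  of `ℚ̄` (over the prime number `p`);
* `absNorm_eq_of_prime231` : in a Galois number field the places over `p` have the same norm;
* `absNorm_fieldE231` : for `p` with trivial inertia in `E = fieldE ρ`, EVERY Frobenius element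
  `σ` at `p` and EVERY place `w` of `E` over `p`: `N w = p ^ ordQ8 (ρ σ)`;
* `exists_placeOver231` : a place of `E` over a given place of `F`.
-/

set_option autoImplicit false
set_option linter.unusedSectionVars false
set_option linter.style.haveILetI false

open IsDedekindDomain NumberField
open scoped MatrixGroups Pointwise

noncomputable section

namespace Fermat.Agent.LT.T7.H231

open Fermat.Agent.LT.H130 Fermat.Agent.LT.A2.H230 Fermat.Agent.LT.T7
open Fermat.Agent.Lib.Cheb.Spec Fermat.Agent.Lib.Cheb.H943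

local notation "Γℚ" => (AlgebraicClosure ℚ ≃ₐ[ℚ] AlgebraicClosure ℚ)

/-! ## The place under a valuation subring -/

section Under

variable (L₀ : IntermediateField ℚ Qb) [NumberField L₀]

/-- The ring homomorphism `𝓞 L₀ → A`. -/
def embA231 (A : ValuationSubring Qb) : 𝓞 L₀ →+* A :=
  (emb L₀).codRestrict A.toSubring (emb_mem L₀ A)

/-- The prime ideal of `𝓞 L₀` under `A`. -/
def idealUnder231 (A : ValuationSubring Qb) : Ideal (𝓞 L₀) :=
  Ideal.comap (embA231 L₀ A) (IsLocalRing.maximalIdeal A)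

theorem mem_idealUnder231 (A : ValuationSubring Qb) (x : 𝓞 L₀) :
    x ∈ idealUnder231 L₀ A ↔ emb L₀ x ∈ A.nonunits := by
  unfold idealUnder231
  rw [Ideal.mem_comap, ← ValuationSubring.coe_mem_nonunits_iff]
  rfl

/-- The place of `L₀` under `A`. -/
def placeUnder231 (A : ValuationSubring Qb) {p : ℕ} (hp : p.Prime) (hA : A.LiesOverPrime p) :
    HeightOneSpectrum (𝓞 L₀) where
  asIdeal := idealUnder231 L₀ A
  isPrime := Ideal.comap_isPrime _ _
  ne_bot := by
    intro h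
    have h1 : ((p : ℕ) : 𝓞 L₀) ∈ idealUnder231 L₀ A := by
      rw [mem_idealUnder231, map_natCast]
      exact hA
    rw [h, Ideal.mem_bot] at h1
    exact hp.ne_zero (by exact_mod_cast h1)

theorem mem_placeUnder231 (A : ValuationSubring Qb) {p : ℕ} (hp : p.Prime)
    (hA : A.LiesOverPrime p) (x : 𝓞 L₀) :
    x ∈ (placeUnder231 L₀ A hp hA).asIdeal ↔ emb L₀ x ∈ A.nonunits :=
  mem_idealUnder231 L₀ A x

theorem prime_mem_placeUnder231 (A : ValuationSubring Qb) {p : ℕ} (hp : p.Prime)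
    (hA : A.LiesOverPrime p) : ((p : ℕ) : 𝓞 L₀) ∈ (placeUnder231 L₀ A hp hA).asIdeal := by
  rw [mem_placeUnder231, map_natCast]
  exact hA

/-- In a Galois number field the places over a prime number have the same norm. -/
theorem absNorm_eq_of_prime231 [IsGalois ℚ L₀] {p : ℕ} (hp : p.Prime)
    (w w' : HeightOneSpectrum (𝓞 L₀)) (hpw : ((p : ℕ) : 𝓞 L₀) ∈ w.asIdeal)
    (hpw' : ((p : ℕ) : 𝓞 L₀) ∈ w'.asIdeal) :
    Ideal.absNorm w.asIdeal = Ideal.absNorm w'.asIdeal := by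
  haveI : Fact p.Prime := ⟨hp⟩
  haveI := w.isPrime
  haveI := w'.isPrime
  haveI : w.asIdeal.IsMaximal := w.isMaximal
  haveI : w'.asIdeal.IsMaximal := w'.isMaximal
  haveI : w.asIdeal.LiesOver (Ideal.span {(p : ℤ)}) :=
    ⟨(under_eq_span L₀ hp w.isPrime hpw).symm⟩
  haveI : w'.asIdeal.LiesOver (Ideal.span {(p : ℤ)}) :=
    ⟨(under_eq_span L₀ hp w'.isPrime hpw').symm⟩
  rw [Ideal.absNorm_eq_pow_inertiaDeg' w.asIdeal hp, Ideal.absNorm_eq_pow_inertiaDeg' w'.asIdeal hp,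
    Ideal.inertiaDeg'_eq_inertiaDeg, Ideal.inertiaDeg'_eq_inertiaDeg,
    Ideal.inertiaDeg_eq_of_isGaloisGroup (Ideal.span ({(p : ℤ)} : Set ℤ)) w.asIdeal w'.asIdeal
      (L₀ ≃ₐ[ℚ] L₀)]

end Under

/-! ## The norm of the places of `E` over `p` -/

section NormE

variable {ρ : Γℚ →* GL (Fin 2) (ZMod 3)}

/-- The norm of the place of `E` under `A`, in terms of a Frobenius element at `A`. -/
theorem absNorm_placeUnder_fieldE231 (hρ : Continuous ρ) [NumberField (fieldE ρ)]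
    {p : ℕ} (hp : p.Prime) {A : ValuationSubring Qb} (hA : A.LiesOverPrime p)
    {σ : Γℚ} (hσ : A.IsFrobeniusAt σ p)
    (hI : InertiaTrivial (fieldE ρ) (placeUnder231 (fieldE ρ) A hp hA).asIdeal) :
    Ideal.absNorm (placeUnder231 (fieldE ρ) A hp hA).asIdeal = p ^ ordQ8 (ρ σ) := by
  haveI := normal_fieldE231 ρ
  set w := placeUnder231 (fieldE ρ) A hp hA with hw
  have hAw : ∀ x ∈ w.asIdeal, emb (fieldE ρ) x ∈ A.nonunits := fun x hx =>
    (mem_placeUnder231 (fieldE ρ) A hp hA x).mp hx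
  obtain ⟨k, hk0, hk⟩ := absNorm_eq_prime_pow231 w hp (prime_mem_placeUnder231 (fieldE ρ) A hp hA)
  -- `N w ≤ p ^ ordQ8 g`
  have h1 : Ideal.absNorm w.asIdeal ≤ p ^ ordQ8 (ρ σ) := by
    refine absNorm_le_of_pow_fixes231 hp w.isMaximal hAw hσ (ordQ8_pos231 _) (fun x => ?_)
    refine fixes_of_inQ8_231 ?_ x
    rw [map_pow]
    exact inQ8_pow_ordQ8_231 _
  have hkle : k ≤ ordQ8 (ρ σ) := by
    rw [hk] at h1
    exact (Nat.pow_le_pow_iff_right hp.one_lt).mp h1
  -- `σ ^ k` fixes `E`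
  have h2 : InQ8 ((ρ σ) ^ k) := by
    rw [← map_pow]
    exact inQ8_of_fixes231 hρ (pow_fixes_of_absNorm231 w.isMaximal hAw hσ hI hk)
  rw [hk, ordQ8_min231 hk0 hkle h2]

/-- **The norm of every place of `E` over `p`** (trivial inertia) is `p ^ ordQ8 (ρ σ)`, for every
Frobenius element `σ` at `p`. -/
theorem absNorm_fieldE231 (hρ : Continuous ρ) [NumberField (fieldE ρ)]
    {p : ℕ} (hp : p.Prime) {A : ValuationSubring Qb} (hA : A.LiesOverPrime p)
    {σ : Γℚ} (hσ : A.IsFrobeniusAt σ p)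
    (hI : ∀ P : Ideal (𝓞 (fieldE ρ)), P.IsPrime → ((p : ℕ) : 𝓞 (fieldE ρ)) ∈ P →
      InertiaTrivial (fieldE ρ) P)
    (w : HeightOneSpectrum (𝓞 (fieldE ρ))) (hpw : ((p : ℕ) : 𝓞 (fieldE ρ)) ∈ w.asIdeal) :
    Ideal.absNorm w.asIdeal = p ^ ordQ8 (ρ σ) := by
  haveI nE := normal_fieldE231 ρ
  haveI gE : IsGalois ℚ (fieldE ρ) := isGalois_iff.mpr ⟨inferInstance, nE⟩
  rw [absNorm_eq_of_prime231 (fieldE ρ) hp w (placeUnder231 (fieldE ρ) A hp hA) hpw
    (prime_mem_placeUnder231 (fieldE ρ) A hp hA)]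
  exact absNorm_placeUnder_fieldE231 hρ hp hA hσ
    (hI _ (placeUnder231 (fieldE ρ) A hp hA).isPrime (prime_mem_placeUnder231 (fieldE ρ) A hp hA))

end NormE

/-! ## Places of `E` over places of `F` -/

section Over

variable (ρ : Γℚ →* GL (Fin 2) (ZMod 3)) [NumberField (fieldF ρ)] [NumberField (fieldE ρ)]

/-- A prime number lies in `v` iff it lies in `w`, for `w` over `v`. -/
theorem prime_mem_of_placeOver231 {v : HeightOneSpectrum (𝓞 (fieldF ρ))}
    {w : HeightOneSpectrum (𝓞 (fieldE ρ))}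
    (h : @PlaceOver (fieldF ρ) (fieldE ρ) _ _ (algFE231 ρ) v w) (p : ℕ) :
    ((p : ℕ) : 𝓞 (fieldF ρ)) ∈ v.asIdeal ↔ ((p : ℕ) : 𝓞 (fieldE ρ)) ∈ w.asIdeal := by
  letI := algFE231 ρ
  refine h ((p : ℕ) : 𝓞 (fieldF ρ)) ((p : ℕ) : 𝓞 (fieldE ρ)) ?_
  simp

/-- Every place of `F` lies under a place of `E`. -/
theorem exists_placeOver231 (v : HeightOneSpectrum (𝓞 (fieldF ρ))) :
    ∃ w : HeightOneSpectrum (𝓞 (fieldE ρ)),
      @PlaceOver (fieldF ρ) (fieldE ρ) _ _ (algFE231 ρ) v w := by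
  letI := algFE231 ρ
  obtain ⟨p, hp, hpv⟩ := exists_prime_mem231 v
  obtain ⟨A, hA⟩ := exists_valuationSubring_over (fieldF ρ) v.asIdeal v.isPrime.ne_top
  have hLO : A.LiesOverPrime p := by
    have h1 := hA _ hpv
    rw [map_natCast] at h1
    exact h1
  refine ⟨placeUnder231 (fieldE ρ) A hp hLO, fun x y hxy => ?_⟩
  have hemb : emb (fieldE ρ) y = emb (fieldF ρ) x := by
    rw [emb_apply, emb_apply, hxy]
    rfl
  rw [mem_placeUnder231, hemb]
  exact ⟨fun hx => hA x hx, fun hx => mem_of_emb_mem_nonunits (fieldF ρ) v.isMaximal hA hx⟩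

end Over

end Fermat.Agent.LT.T7.H231

end
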