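import Mathlib
import Fermat.Agent.LT.T7.Spec
import Fermat.Agent.LT.T7.H231.DictEFPlaces
import Fermat.Agent.LT.T7.H922.DictFQ

/-!
# Row LT, tower T7, leaf T7.05 `DictEFC` (helper231, spare proof)

OFF-MAIN.  Spec: `Fermat/Agent/LT/T7/Spec.lean` v1.2 (origin/helper797@d4e07e123, sha256
76a196044a64b920, byte-identical copy).

`dictEFC231 : DictEFC`, VERBATIM.

Proof.  `F = fieldF ρ ⊆ E = fieldE ρ` are the fixed fields of the open normal subgroups
`ρ⁻¹(SL₂(𝔽₃)) ⊇ ρ⁻¹(Q8)` of `Gal(ℚ̄/ℚ)`; the algebra structure is the inclusion; `E/F` is Galois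
of degree `[SL₂(𝔽₃) : Q8] = 3` (`DictEFFields`); `F = ℚ(ζ₃)` is totally complex (helper922).
* `SeedData ⇒ ConstOnFibres, TrivCentral`: the data of `Φ` at the places over `p` are given by
  ONE Frobenius element at `p` (which exists).
* `IsBC + TrivCentral + SeedData ⇒ MidData`: let `p` be outside a finite set, `σ` a Frobenius
  element at `p`, `g = ρ σ`, `v` a place of `F` over `p`, `w` a place of `E` over `v`.  Then
  `N v = p ^ ordSL g` (helper922) and `N w = p ^ ordQ8 g` (`absNorm_fieldE231`: `ordQ8 g` is the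
  order of `σ` on `E`, all places of the Galois field `E` over `p` have the same norm), and
  `ordQ8 g = ordSL g * d`, `d = ordQ8 (g ^ ordSL g)`, so `w` has residue degree `d` over `v`;
  the base change relation at `(v, w)` and the seed data at `w` give
  `satakePow d a_v b_v = a_w = tr Ψ (g ^ ordQ8 g) = tr Ψ ((g ^ ordSL g) ^ d)`.
-/

set_option autoImplicit false
set_option linter.unusedSectionVars false
set_option linter.style.haveILetI false

open AutomorphicForm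
open IsDedekindDomain NumberField
open scoped MatrixGroups Pointwise

noncomputable section

namespace Fermat.Agent.LT.T7.H231

open Fermat.Agent.LT.H130 Fermat.Agent.LT.H556 Fermat.Agent.LT.A2.H230 Fermat.Agent.LT.T7
open Fermat.Agent.Lib.Cheb.Spec Fermat.Agent.Lib.Cheb.H943
open Fermat.Agent.LT.T7.H922

local notation "Γℚ" => (AlgebraicClosure ℚ ≃ₐ[ℚ] AlgebraicClosure ℚ)

/-- **Leaf T7.05 `DictEFC`.** -/
theorem dictEFC231 : DictEFC := by
  intro ρ Ψ ι hyp nfE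
  classical
  haveI := nfE
  have nfF : NumberField (fieldF ρ) := numberField_fieldF231 hyp.cont
  haveI := nfF
  refine ⟨nfF, algFE231 ρ, fun x => rfl, isCycExt_FE231 hyp.cont hyp.surj,
    (isImagQuad_fieldF922 hyp).2, ?_⟩
  letI := algFE231 ρ
  haveI nE := normal_fieldE231 ρ
  haveI gE : IsGalois ℚ (fieldE ρ) := isGalois_iff.mpr ⟨inferInstance, nE⟩
  haveI hcyc := isCyclotomicExtension_fieldF922 hyp
  obtain ⟨BE, hBE⟩ := frobStatement (fieldE ρ)
  rintro Φ ⟨S₀, hS₀⟩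
  -- the data of `Φ` at the places over `p`
  have hΦ : ∀ p : ℕ, p.Prime → p ∉ S₀ → ∀ w w' : HeightOneSpectrum (𝓞 (fieldE ρ)),
      ((p : ℕ) : 𝓞 (fieldE ρ)) ∈ w.asIdeal → ((p : ℕ) : 𝓞 (fieldE ρ)) ∈ w'.asIdeal →
        Φ.a w = Φ.a w' ∧ Φ.b w = 1 ∧ Φ.b w' = 1 := by
    intro p hp hpS w w' hpw hpw'
    obtain ⟨A, σ, hLO, hσ, -⟩ := exists_frob_over231 (fieldE ρ) w hp hpw
    have h1 := hS₀ p hp hpS A hLO σ hσ w hpw
    have h2 := hS₀ p hp hpS A hLO σ hσ w' hpw'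
    exact ⟨h1.1.trans h2.1.symm, h1.2, h2.2⟩
  refine ⟨⟨overFinset231 (fieldE ρ) S₀, ?_⟩, ⟨overFinset231 (fieldE ρ) S₀, ?_⟩, ?_⟩
  · -- `ConstOnFibres`
    intro w hw w' _ v hvw hvw'
    obtain ⟨p, hp, hpw⟩ := exists_prime_mem231 w
    have hpS : p ∉ S₀ := fun h => hw (mem_overFinset231.mpr ⟨p, h, hp, hpw⟩)
    have hpv := (prime_mem_of_placeOver231 ρ hvw p).mpr hpw
    have hpw' := (prime_mem_of_placeOver231 ρ hvw' p).mp hpv
    obtain ⟨h1, h2, h3⟩ := hΦ p hp hpS w w' hpw hpw'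
    exact ⟨h1, h2.trans h3.symm⟩
  · -- `TrivCentral`
    intro w hw
    obtain ⟨p, hp, hpw⟩ := exists_prime_mem231 w
    have hpS : p ∉ S₀ := fun h => hw (mem_overFinset231.mpr ⟨p, h, hp, hpw⟩)
    exact (hΦ p hp hpS w w hpw hpw).2.1
  · -- `MidData`
    rintro π ⟨S₁, hS₁⟩ ⟨S₂, hS₂⟩
    refine ⟨S₀ ∪ BE ∪ S₁.image primeOf231 ∪ S₂.image primeOf231 ∪ {3}, ?_⟩
    intro p hp hpS A hLO σ hσ v hpv
    simp only [Finset.mem_union, Finset.mem_singleton, not_or] at hpS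
    obtain ⟨⟨⟨⟨hp0, hpBE⟩, hp1⟩, hp2⟩, hp3⟩ := hpS
    -- the central character
    have hv2 : v ∉ S₂ := not_mem_of_prime_not_mem_image231 hp hp2 hpv
    have hb : π.b v = 1 := hS₂ v hv2
    -- a place of `E` over `v`
    obtain ⟨w, hvw⟩ := exists_placeOver231 ρ v
    have hpw := (prime_mem_of_placeOver231 ρ hvw p).mp hpv
    have hw1 : w ∉ S₁ := not_mem_of_prime_not_mem_image231 hp hp1 hpw
    -- the norms
    have hNv : Ideal.absNorm v.asIdeal = p ^ ordSL (ρ σ) := by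
      rw [ordSL_frob922 hyp hp hp3 hLO hσ]
      exact absNorm_eq922 (fieldF ρ) hp hp3 v hpv
    have hNw : Ideal.absNorm w.asIdeal = p ^ ordQ8 (ρ σ) :=
      absNorm_fieldE231 hyp.cont hp hLO hσ (fun P hP hpP => (hBE p hp hpBE P hP hpP).1) w hpw
    have hres : HasResDeg (fieldF ρ) (fieldE ρ) v w (ordQ8 ((ρ σ) ^ ordSL (ρ σ))) := by
      refine ⟨hvw, ?_⟩
      rw [hNw, hNv, ← pow_mul, ← ordQ8_eq_mul231]
    obtain ⟨ha, -⟩ := hS₁ w hw1 v _ hres
    have hseed := (hS₀ p hp hp0 A hLO σ hσ w hpw).1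
    refine ⟨?_, hb⟩
    rw [← ha, hseed, pow_ordQ8_eq231]

end Fermat.Agent.LT.T7.H231

end
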