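import Mathlib
import Fermat.Agent.LT.T7.Level2
import Fermat.Agent.LT.T7.H32.SpecIdClosed
import Fermat.Agent.LT.T6.H981.NormClass
import Fermat.Agent.LT.T6.H848.NormInj

/-!
# Row LT, tower T7, node T7.C3-REG `TraceWordsRegP`: INTEGRATION of level 2 (helper231)

OFF-MAIN.  The cut is the architect's (`LT/T7/Level2.lean`, sha256 1551664660339642,
helper797@819237e8b; `LT/T7/Matching.lean`, sha256 0549163ecb1ee5a4).  This file imports
byte-identical copies of the volunteers' files in ONE closure.

| item | state |
|---|---|
| `SpecIdC K K'` (spectral identity for matched pairs) | CLOSED: helper32 `specIdC32` (T5 closed tower + `GeomC` = T7.G1) with `T6.NormClassC` (helper981 `normClassC_h981`) and `T6.NormInjC` (helper848 `normInjC848`) |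
| T7.L2.1 `SupplyC P K K'` | OPEN (node: geometric half) |
| T7.L2.2 `SpecUpC K K'` | OPEN (node: spectral half upstairs + non-vanishing) |
| T7.L2.3 `SpecDownC K K'` | OPEN (node: spectral half downstairs + realisation) |
-/

set_option autoImplicit false

namespace Fermat.Agent.LT.T7.H231

open Fermat.Agent.LT.T7

/-- The spectral identity for matched admissible pairs is closed. -/
theorem specIdC_closed231 (K K' : Type) [Field K] [NumberField K] [Field K'] [NumberField K']
    [Algebra K K'] : SpecIdC K K' :=
  Fermat.Agent.LT.T7.H32.specIdC32 Fermat.Agent.LT.T6.H981.normClassC_h981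
    Fermat.Agent.LT.T6.H848.normInjC848

/-- The node `TraceWordsRegP P K K'` from the three nodes of level 2. -/
theorem traceWordsRegP_of_level2_231 (P : EKCond) (K K' : Type) [Field K] [NumberField K]
    [Field K'] [NumberField K'] [Algebra K K'] (hS : SupplyC P K K') (hU : SpecUpC K K')
    (hD : SpecDownC K K') : TraceWordsRegP P K K' :=
  traceWordsRegP_of hS hU hD (specIdC_closed231 K K')

/-- The three nodes of level 2 of the cyclic case, for all cyclic extensions. -/
structure Level2Open231 (P : EKCond) : Prop where
  /-- NODE T7.L2.1: supply of matched regular families (geometric half). -/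
  supply : ∀ (K K' : Type) [Field K] [NumberField K] [Field K'] [NumberField K']
    [Algebra K K'], SupplyC P K K'
  /-- NODE T7.L2.2: spectral expansion upstairs and non-vanishing. -/
  specUp : ∀ (K K' : Type) [Field K] [NumberField K] [Field K'] [NumberField K']
    [Algebra K K'], SpecUpC K K'
  /-- NODE T7.L2.3: spectral expansion downstairs and realisation. -/
  specDown : ∀ (K K' : Type) [Field K] [NumberField K] [Field K'] [NumberField K']
    [Algebra K K'], SpecDownC K K'

/-- **`TraceWordsRegPAll P` from the three nodes of level 2.** -/
theorem traceWordsRegPAll_of_level2_231 (P : EKCond) (h : Level2Open231 P) :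
    TraceWordsRegPAll P :=
  fun K K' _ _ _ _ _ =>
    traceWordsRegP_of_level2_231 P K K' (h.supply K K') (h.specUp K K') (h.specDown K K')

end Fermat.Agent.LT.T7.H231
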