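import Mathlib
import Fermat.Agent.LT.T7.Spec
import Fermat.Agent.LT.T7.H231.Dict

/-!
# Row LT, tower T7, leaf T7.04 `MidStableFromC` (helper231)

OFF-MAIN.  Spec: `Fermat/Agent/LT/T7/Spec.lean` (origin/helper797@31d807178, sha256 41dbc37a…,
byte-identical copy).

`midStableFromC231 : MidStableFromC`, i.e. `FibreAll → ConjAll → DictEFC → MidStableC`.

Proof.  Let `πF` be cuspidal over `F = fieldF ρ` with `MidData`.  For EVERY automorphism `s` of
`F/ℚ` (no knowledge of `Gal(F/ℚ)` is needed, it is a finite group):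
* `ConjC` gives `π'` cuspidal with `π'_{s v} = πF_v` a.e.;
* `πF` and `π'` have trivial central characters a.e. (`MidData`; a Frobenius element exists at
  every prime);
* `SameBC E πF π'`: let `w ∣ v ∣ p`, `N w = (N v) ^ f`, `p` outside a finite set; choose a
  valuation subring `A` of `ℚ̄` over `w` and a Frobenius `σ` at `A`, `g = ρ σ`; `MidData` at
  `(A, σ)` for the places `v` and `s⁻¹ v` of `F` over `p` is the SAME identity
  `satakePow d a 1 = tr Ψ (…)`, `d = ordQ8 (g ^ ordSL g) ∈ {1, 3}`; if `d = 1` then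
  `a_v = a_{s⁻¹ v}`; if `d = 3` then `f = 3` by the Frobenius dictionary
  (`resDeg_eq_three231`);
* `FibreC` for `E/F` (degree `3`, from `DictEFC`) gives `πF = π'` a.e., so
  `πF_{s v} = πF_v` a.e.
Finally the places of `F` over `p` are permuted transitively by `Gal(F/ℚ)`.
-/

set_option autoImplicit false
set_option linter.unusedSectionVars false
set_option linter.style.haveILetI false

open AutomorphicForm
open IsDedekindDomain NumberField
open scoped MatrixGroups Pointwise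

noncomputable section

namespace Fermat.Agent.LT.T7.H231

open Fermat.Agent.LT.H130 Fermat.Agent.LT.H556 Fermat.Agent.LT.A2.H230 Fermat.Agent.LT.T7
open Fermat.Agent.Lib.Cheb.Spec Fermat.Agent.Lib.Cheb.H943

local notation "Γℚ" => (AlgebraicClosure ℚ ≃ₐ[ℚ] AlgebraicClosure ℚ)

/-- The places of a Galois number field `L₀ ⊆ ℚ̄` over a prime number are conjugate. -/
theorem exists_placeImage_of_prime231 (L₀ : IntermediateField ℚ Qb) [NumberField L₀]
    [IsGalois ℚ L₀] {p : ℕ} (hp : p.Prime) (w w' : HeightOneSpectrum (𝓞 L₀))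
    (hpw : ((p : ℕ) : 𝓞 L₀) ∈ w.asIdeal) (hpw' : ((p : ℕ) : 𝓞 L₀) ∈ w'.asIdeal) :
    ∃ s : L₀ ≃ₐ[ℚ] L₀, PlaceImage s.toRingEquiv w w' := by
  haveI := w.isPrime
  haveI := w'.isPrime
  haveI : w.asIdeal.LiesOver (Ideal.span {(p : ℤ)}) :=
    ⟨(under_eq_span L₀ hp w.isPrime hpw).symm⟩
  haveI : w'.asIdeal.LiesOver (Ideal.span {(p : ℤ)}) :=
    ⟨(under_eq_span L₀ hp w'.isPrime hpw').symm⟩
  obtain ⟨s, hs⟩ := Ideal.exists_smul_eq_of_isGaloisGroup (Ideal.span ({(p : ℤ)} : Set ℤ))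
    w.asIdeal w'.asIdeal (L₀ ≃ₐ[ℚ] L₀)
  refine ⟨s, fun x y hxy => ?_⟩
  have hy : y = s • x := by
    apply RingOfIntegers.ext
    rw [hxy]
    rfl
  rw [hy, ← hs]
  exact (Ideal.smul_mem_pointwise_smul_iff).symm

/-- **Leaf T7.04 `MidStableFromC`.** -/
theorem midStableFromC231 : MidStableFromC := by
  intro hFib hConj hDict ρ Ψ ι hyp nfF πF hcusp hmid
  classical
  haveI := nfF
  have nfE : NumberField (fieldE ρ) := numberField_fieldE230 hyp.cont
  haveI := nfE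
  obtain ⟨nfF', alg, hcompat, hcyc, hcplx, -⟩ := hDict ρ Ψ ι hyp nfE
  letI := alg
  haveI nE := normal_fieldE231 ρ
  haveI nF := normal_fieldF231 ρ
  haveI gE : IsGalois ℚ (fieldE ρ) := isGalois_iff.mpr ⟨inferInstance, nE⟩
  haveI gF : IsGalois ℚ (fieldF ρ) := isGalois_iff.mpr ⟨inferInstance, nF⟩
  obtain ⟨BE, hBE⟩ := frobStatement (fieldE ρ)
  obtain ⟨S₁, hS₁⟩ := hmid
  -- Step 0: the central character of `πF`
  have hb : ∀ p : ℕ, p.Prime → p ∉ S₁ → ∀ v : HeightOneSpectrum (𝓞 (fieldF ρ)),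
      ((p : ℕ) : 𝓞 (fieldF ρ)) ∈ v.asIdeal → πF.b v = 1 := by
    intro p hp hpS v hpv
    obtain ⟨A, σ, hLO, hσ, -⟩ := exists_frob_over231 (fieldF ρ) v hp hpv
    exact (hS₁ p hp hpS A hLO σ hσ v hpv).2
  -- Step 1: every automorphism of `F`
  have key : ∀ s : (fieldF ρ) ≃ₐ[ℚ] (fieldF ρ), ∃ S : Finset ℕ, ∀ p : ℕ, p.Prime → p ∉ S →
      ∀ v v' : HeightOneSpectrum (𝓞 (fieldF ρ)), ((p : ℕ) : 𝓞 (fieldF ρ)) ∈ v.asIdeal →
        PlaceImage s.toRingEquiv v v' → πF.a v' = πF.a v := by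
    intro s
    obtain ⟨π', hπ', S₂, hS₂⟩ := hConj (fieldF ρ) s.toRingEquiv πF hcusp
    -- trivial central characters
    have htF : TrivCentral πF := by
      refine ⟨overFinset231 (fieldF ρ) S₁, fun v hv => ?_⟩
      obtain ⟨p, hp, hpv⟩ := exists_prime_mem231 v
      exact hb p hp (fun hpS => hv (mem_overFinset231.mpr ⟨p, hpS, hp, hpv⟩)) v hpv
    have ht' : TrivCentral π' := by
      refine ⟨overFinset231 (fieldF ρ) S₁ ∪ S₂.image (placeMap231 s.toRingEquiv),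
        fun v' hv' => ?_⟩
      rw [Finset.mem_union, not_or] at hv'
      obtain ⟨v, hv⟩ := exists_placeImage231 s.toRingEquiv v'
      have hvS₂ : v ∉ S₂ := fun h =>
        hv'.2 (Finset.mem_image.mpr ⟨v, h, (placeImage_unique231 hv).symm⟩)
      obtain ⟨p, hp, hpv'⟩ := exists_prime_mem231 v'
      have hpv : ((p : ℕ) : 𝓞 (fieldF ρ)) ∈ v.asIdeal := (placeImage_prime231 hv p).mpr hpv'
      have hpS : p ∉ S₁ := fun h => hv'.1 (mem_overFinset231.mpr ⟨p, h, hp, hpv'⟩)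
      rw [(hS₂ v hvS₂ v' hv).2]
      exact hb p hp hpS v hpv
    -- the bad primes
    set Sb : Finset ℕ := S₁ ∪ BE ∪ S₂.image primeOf231 with hSb
    have hsame : SameBC (fieldE ρ) πF π' := by
      refine ⟨overFinset231 (fieldE ρ) Sb, fun w hw v f hres => ?_⟩
      obtain ⟨hover, hnorm⟩ := hres
      obtain ⟨p, hp, hpw⟩ := exists_prime_mem231 w
      have hpSb : p ∉ Sb := fun h => hw (mem_overFinset231.mpr ⟨p, h, hp, hpw⟩)
      simp only [hSb, Finset.mem_union, not_or] at hpSb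
      obtain ⟨⟨hpS₁, hpBE⟩, hpS₂⟩ := hpSb
      have hpv : ((p : ℕ) : 𝓞 (fieldF ρ)) ∈ v.asIdeal := by
        refine (hover ((p : ℕ) : 𝓞 (fieldF ρ)) ((p : ℕ) : 𝓞 (fieldE ρ)) ?_).mpr hpw
        simp
      obtain ⟨A, σ, hLO, hσ, hAw⟩ := exists_frob_over231 (fieldE ρ) w hp hpw
      have hAv : ∀ x ∈ v.asIdeal, emb (fieldF ρ) x ∈ A.nonunits := by
        intro x hx
        have hy : ((RingOfIntegers.mapRingHom (algebraMap (fieldF ρ) (fieldE ρ)) x :
            𝓞 (fieldE ρ)) : fieldE ρ) = algebraMap (fieldF ρ) (fieldE ρ) (x : fieldF ρ) := rfl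
        have h1 := hAw _ ((hover x _ hy).mp hx)
        rw [emb_apply, hy, hcompat] at h1
        exact h1
      -- the place `s⁻¹ v`
      obtain ⟨v₀, hv₀⟩ := exists_placeImage231 s.toRingEquiv v
      have hpv₀ : ((p : ℕ) : 𝓞 (fieldF ρ)) ∈ v₀.asIdeal := (placeImage_prime231 hv₀ p).mpr hpv
      have hv₀S₂ : v₀ ∉ S₂ := not_mem_of_prime_not_mem_image231 hp hpS₂ hpv₀
      obtain ⟨ha', hb'⟩ := hS₂ v₀ hv₀S₂ v hv₀
      have hmv := hS₁ p hp hpS₁ A hLO σ hσ v hpv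
      have hmv₀ := hS₁ p hp hpS₁ A hLO σ hσ v₀ hpv₀
      have e1 := hmv.1
      have e2 := hmv₀.1
      rw [hmv.2] at e1
      rw [hmv₀.2] at e2
      rw [ha', hb', hmv.2, hmv₀.2]
      refine ⟨?_, rfl⟩
      rcases ord_cases231 (ρ σ) with hd | ⟨hdet, hq, hd⟩
      · rw [hd, satakePow_one] at e1 e2
        rw [e1, e2]
      · have hf3 : f = 3 :=
          resDeg_eq_three231 hyp.cont hp v w hpv hpw hAv hAw hσ
            (hBE p hp hpBE w.asIdeal w.isPrime hpw).1 hdet hq hnorm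
        rw [hd] at e1 e2
        rw [hf3, e1, e2]
    obtain ⟨S₅, hS₅⟩ := hFib (fieldF ρ) (fieldE ρ) 3 hcyc (by norm_num) hcplx πF π' hcusp hπ'
      htF ht' hsame
    refine ⟨S₂.image primeOf231 ∪ S₅.image primeOf231, fun p hp hpS v v' hpv hvv' => ?_⟩
    rw [Finset.mem_union, not_or] at hpS
    have hvS₂ : v ∉ S₂ := not_mem_of_prime_not_mem_image231 hp hpS.1 hpv
    have hpv' : ((p : ℕ) : 𝓞 (fieldF ρ)) ∈ v'.asIdeal := (placeImage_prime231 hvv' p).mp hpv
    have hv'S₅ : v' ∉ S₅ := not_mem_of_prime_not_mem_image231 hp hpS.2 hpv'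
    rw [(hS₅ v' hv'S₅).1, (hS₂ v hvS₂ v' hvv').1]
  -- Step 2: the union over the Galois group
  choose Ss hSs using key
  refine ⟨S₁ ∪ Finset.univ.biUnion Ss, fun p hp hpS w w' hpw hpw' => ?_⟩
  rw [Finset.mem_union, not_or] at hpS
  refine ⟨?_, by rw [hb p hp hpS.1 w hpw, hb p hp hpS.1 w' hpw']⟩
  obtain ⟨s, hs⟩ := exists_placeImage_of_prime231 (fieldF ρ) hp w' w hpw' hpw
  exact hSs s p hp (fun h => hpS.2 (Finset.mem_biUnion.mpr ⟨s, Finset.mem_univ _, h⟩))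
    w' w hpw' hs

end Fermat.Agent.LT.T7.H231

end
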