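import Mathlib
import Fermat.Agent.LT.T7.Spec
import Fermat.Agent.LT.T7.H231.MidStable

/-!
# Row LT, tower T7, leaf T7.08 `MidStableFromUniqueC` (helper231)

OFF-MAIN.  Spec: `Fermat/Agent/LT/T7/Spec.lean` v1.2 (origin/helper797@d4e07e123, sha256
76a196044a64b920, byte-identical copy).

`midStableFromUniqueC231 : MidStableFromUniqueC`, i.e. `MidUniqueC → ConjAll → MidStableC`.

Same skeleton as T7.04 (`MidStable.lean`), without the Frobenius dictionary: for EVERY
automorphism `s` of `F/ℚ` the conjugate `π'` of `πF` (`ConjC`) has the data `MidData` (the identity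
of `MidData` at a place `v'` over `p` for `π'` is the identity for `πF` at `s⁻¹ v'`, a place over
the same `p`, with the same Frobenius element), hence `π' = πF` a.e. by `MidUniqueC`; the places
of `F` over `p` are permuted transitively by `Gal(F/ℚ)`.
-/

set_option autoImplicit false
set_option linter.unusedSectionVars false
set_option linter.style.haveILetI false

open AutomorphicForm
open IsDedekindDomain NumberField
open scoped MatrixGroups Pointwise

noncomputable section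

namespace Fermat.Agent.LT.T7.H231

open Fermat.Agent.LT.H130 Fermat.Agent.LT.H556 Fermat.Agent.LT.A2.H230 Fermat.Agent.LT.T7
open Fermat.Agent.Lib.Cheb.Spec Fermat.Agent.Lib.Cheb.H943

local notation "Γℚ" => (AlgebraicClosure ℚ ≃ₐ[ℚ] AlgebraicClosure ℚ)

/-- **Leaf T7.08 `MidStableFromUniqueC`.** -/
theorem midStableFromUniqueC231 : MidStableFromUniqueC := by
  intro hUniq hConj ρ Ψ ι hyp nfF πF hcusp hmid
  classical
  haveI := nfF
  haveI nF := normal_fieldF231 ρ
  haveI gF : IsGalois ℚ (fieldF ρ) := isGalois_iff.mpr ⟨inferInstance, nF⟩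
  have hmid' := hmid
  obtain ⟨S₁, hS₁⟩ := hmid
  -- Step 0: the central character of `πF`
  have hb : ∀ p : ℕ, p.Prime → p ∉ S₁ → ∀ v : HeightOneSpectrum (𝓞 (fieldF ρ)),
      ((p : ℕ) : 𝓞 (fieldF ρ)) ∈ v.asIdeal → πF.b v = 1 := by
    intro p hp hpS v hpv
    obtain ⟨A, σ, hLO, hσ, -⟩ := exists_frob_over231 (fieldF ρ) v hp hpv
    exact (hS₁ p hp hpS A hLO σ hσ v hpv).2
  -- Step 1: every automorphism of `F`
  have key : ∀ s : (fieldF ρ) ≃ₐ[ℚ] (fieldF ρ), ∃ S : Finset ℕ, ∀ p : ℕ, p.Prime → p ∉ S →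
      ∀ v v' : HeightOneSpectrum (𝓞 (fieldF ρ)), ((p : ℕ) : 𝓞 (fieldF ρ)) ∈ v.asIdeal →
        PlaceImage s.toRingEquiv v v' → πF.a v' = πF.a v := by
    intro s
    obtain ⟨π', hπ', S₂, hS₂⟩ := hConj (fieldF ρ) s.toRingEquiv πF hcusp
    -- the conjugate has the data `MidData`
    have hmidπ' : MidData (fieldF ρ) ρ Ψ ι π' := by
      refine ⟨S₁ ∪ S₂.image primeOf231, fun p hp hpS A hLO σ hσ v' hpv' => ?_⟩
      rw [Finset.mem_union, not_or] at hpS
      obtain ⟨v, hv⟩ := exists_placeImage231 s.toRingEquiv v'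
      have hpv : ((p : ℕ) : 𝓞 (fieldF ρ)) ∈ v.asIdeal := (placeImage_prime231 hv p).mpr hpv'
      have hvS₂ : v ∉ S₂ := not_mem_of_prime_not_mem_image231 hp hpS.2 hpv
      obtain ⟨ha', hb'⟩ := hS₂ v hvS₂ v' hv
      rw [ha', hb']
      exact hS₁ p hp hpS.1 A hLO σ hσ v hpv
    obtain ⟨S₅, hS₅⟩ := hUniq ρ Ψ ι hyp nfF πF π' hcusp hπ' hmid' hmidπ'
    refine ⟨S₂.image primeOf231 ∪ S₅.image primeOf231, fun p hp hpS v v' hpv hvv' => ?_⟩
    rw [Finset.mem_union, not_or] at hpS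
    have hvS₂ : v ∉ S₂ := not_mem_of_prime_not_mem_image231 hp hpS.1 hpv
    have hpv' : ((p : ℕ) : 𝓞 (fieldF ρ)) ∈ v'.asIdeal := (placeImage_prime231 hvv' p).mp hpv
    have hv'S₅ : v' ∉ S₅ := not_mem_of_prime_not_mem_image231 hp hpS.2 hpv'
    rw [(hS₅ v' hv'S₅).1, (hS₂ v hvS₂ v' hvv').1]
  -- Step 2: the union over the Galois group
  choose Ss hSs using key
  refine ⟨S₁ ∪ Finset.univ.biUnion Ss, fun p hp hpS w w' hpw hpw' => ?_⟩
  rw [Finset.mem_union, not_or] at hpS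
  refine ⟨?_, by rw [hb p hp hpS.1 w hpw, hb p hp hpS.1 w' hpw']⟩
  obtain ⟨s, hs⟩ := exists_placeImage_of_prime231 (fieldF ρ) hp w' w hpw' hpw
  exact hSs s p hp (fun h => hpS.2 (Finset.mem_biUnion.mpr ⟨s, Finset.mem_univ _, h⟩))
    w' w hpw' hs

end Fermat.Agent.LT.T7.H231

end
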