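import Mathlib
import Fermat.Agent.S54.FrobExists
import Fermat.Agent.LT.T7.H176.Thin
import Fermat.Agent.LT.T7.H176.Bound
import Fermat.Agent.LT.T7.H176.TotCplx

/-!
# Row LT, tower T7, leaf T7.07 `MidUniqueFromC`: RE-BASED COPY on Spec v1.2 (helper231)

OFF-MAIN.  This file is a copy of `LT/T7/H176/MidUnique.lean` of helper176
(origin/helper176@b309c9d46, sha256 585e5411855ba862) WITHOUT its last by-product `top176`
(which was written against `T7.top` of Spec v1.1 and does not typecheck against Spec v1.2), in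
the namespace `Fermat.Agent.LT.T7.H231.R176`, followed by the leaf
`midUniqueFromC231 : T7.MidUniqueFromC` (= `MidUniqueTop.lean` of helper176).  All proofs are
helper176's; `Places`, `Thin`, `Bound`, `TotCplx` of helper176 are imported byte-identical.
Reason: the integration `LT/T7/H231/Closed.lean` is built on Spec v1.2 (76a196044a64b920).
-/

set_option autoImplicit false

open AutomorphicForm FLT.ExplicitLift
open IsDedekindDomain NumberField

noncomputable section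

namespace Fermat.Agent.LT.T7.H231.R176

open Fermat.Agent.LT.H130 Fermat.Agent.LT.H556 Fermat.Agent.LT.T7 Fermat.Agent.LT.T7.H176

local notation "Γℚ" => (AlgebraicClosure ℚ ≃ₐ[ℚ] AlgebraicClosure ℚ)

variable {K : Type} [Field K] [NumberField K]

/-- A property which holds at almost all primes (in the sense of `H130.AlmostAllFrob`) holds at
almost all places, in the form "for some Frobenius element". -/
theorem almostAll_places176 (ρ : Γℚ →* GL (Fin 2) (ZMod 3))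
    (P : HeightOneSpectrum (𝓞 K) → GL (Fin 2) (ZMod 3) → Prop)
    (h : AlmostAllFrob K ρ P) :
    ∃ S : Finset (HeightOneSpectrum (𝓞 K)), ∀ v : HeightOneSpectrum (𝓞 K), v ∉ S →
      ∃ g : GL (Fin 2) (ZMod 3), P v g := by
  obtain ⟨S, hS⟩ := h
  refine ⟨(finite_over_finset176 (K := K) S).toFinset, fun v hv => ?_⟩
  obtain ⟨p, hp, hpv⟩ := exists_prime_mem176 v
  have hpS : p ∉ S := by
    intro hpS
    apply hv
    rw [Set.Finite.mem_toFinset]
    exact ⟨p, hpS, hp, hpv⟩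
  obtain ⟨A, σ, hA, hσ⟩ := Fermat.Agent.S54.exists_frobenius p hp
  exact ⟨ρ σ, hS p hp hpS A hA σ hσ v hpv⟩

/-- The same outside a thin set of primes (`T7.ThinFrob`): the property holds outside a thin
set of places, in the form "for some Frobenius element", and the SAME Frobenius element serves
for two properties. -/
theorem thin_places176 (ρ : Γℚ →* GL (Fin 2) (ZMod 3))
    (P P' : HeightOneSpectrum (𝓞 K) → GL (Fin 2) (ZMod 3) → Prop)
    (h : ThinFrob K ρ P) (h' : ThinFrob K ρ P') :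
    ∃ B : Set (HeightOneSpectrum (𝓞 K)), IsThinPlaces B ∧
      ∀ v : HeightOneSpectrum (𝓞 K), v ∉ B → ∃ g : GL (Fin 2) (ZMod 3), P v g ∧ P' v g := by
  obtain ⟨A, hA, hP⟩ := h
  obtain ⟨A', hA', hP'⟩ := h'
  refine ⟨placesOver176 K (A ∪ A'), isThinPlaces_over176 _ (isThin_union176 hA hA'),
    fun v hv => ?_⟩
  obtain ⟨p, hp, hpv⟩ := exists_prime_mem176 v
  have hpA : p ∉ A ∪ A' := by
    intro hpA
    exact hv ⟨p, hpA, hp, hpv⟩
  have hp1 : p ∉ A := fun h1 => hpA (Or.inl h1)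
  have hp2 : p ∉ A' := fun h2 => hpA (Or.inr h2)
  obtain ⟨V, σ, hV, hσ⟩ := Fermat.Agent.S54.exists_frobenius p hp
  exact ⟨ρ σ, hP p hp hp1 V hV σ hσ v hpv, hP' p hp hp2 V hV σ hσ v hpv⟩

/-- `MidData` gives a trivial central character. -/
theorem trivCentral_of_midData176 (ρ : Γℚ →* GL (Fin 2) (ZMod 3))
    (Ψ : GL (Fin 2) (ZMod 3) →* GL (Fin 2) (ℤ√(-2))) (ι : ℤ√(-2) →+* ℂ)
    (π : HeckeEigensystem K ℂ) (h : MidData K ρ Ψ ι π) : TrivCentral π := by
  obtain ⟨S, hS⟩ := almostAll_places176 ρ _ h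
  refine ⟨S, fun v hv => ?_⟩
  obtain ⟨g, -, hb⟩ := hS v hv
  exact hb

/-- `MidData` gives `|a_v| ≤ 2` almost everywhere. -/
theorem bound_of_midData176 (ρ : Γℚ →* GL (Fin 2) (ZMod 3))
    (Ψ : GL (Fin 2) (ZMod 3) →* GL (Fin 2) (ℤ√(-2)))
    (hΨ : ∀ g, Matrix.GeneralLinearGroup.map red (Ψ g) = g) (ι : ℤ√(-2) →+* ℂ)
    (π : HeckeEigensystem K ℂ) (h : MidData K ρ Ψ ι π) :
    ∃ S : Finset (HeightOneSpectrum (𝓞 K)), ∀ v : HeightOneSpectrum (𝓞 K), v ∉ S →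
      ‖π.a v‖ ≤ 2 := by
  obtain ⟨S, hS⟩ := almostAll_places176 ρ _ h
  refine ⟨S, fun v hv => ?_⟩
  obtain ⟨g, ha, hb⟩ := hS v hv
  rw [hb] at ha
  exact norm_le_two_of_mid176 Ψ hΨ ι g (π.a v) ha

/-- **T7.07, conditional on `F` being totally complex.** -/
theorem midUniqueFrom_of_totCplx176
    (hTC : ∀ (ρ : Γℚ →* GL (Fin 2) (ZMod 3))
      (Ψ : GL (Fin 2) (ZMod 3) →* GL (Fin 2) (ℤ√(-2))), LTB.Hyp ρ Ψ →
      ∀ (_ : NumberField (fieldF ρ)), TotCplx (fieldF ρ)) :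
    MidUniqueFromC := by
  intro hThin hRigid ρ Ψ ι hyp nf π π' hπ hπ' hmid hmid'
  have hcplx : TotCplx (fieldF ρ) := hTC ρ Ψ hyp nf
  have htriv : TrivCentral π := trivCentral_of_midData176 ρ Ψ ι π hmid
  have htriv' : TrivCentral π' := trivCentral_of_midData176 ρ Ψ ι π' hmid'
  obtain ⟨S, hS⟩ := bound_of_midData176 ρ Ψ hyp.lift ι π hmid
  obtain ⟨S', hS'⟩ := bound_of_midData176 ρ Ψ hyp.lift ι π' hmid'
  have hbound : ∃ T : Finset (HeightOneSpectrum (𝓞 (fieldF ρ))),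
      ∀ v : HeightOneSpectrum (𝓞 (fieldF ρ)), v ∉ T → ‖π.a v‖ ≤ 2 ∧ ‖π'.a v‖ ≤ 2 := by
    classical
    refine ⟨S ∪ S', fun v hv => ?_⟩
    rw [Finset.mem_union, not_or] at hv
    exact ⟨hS v hv.1, hS' v hv.2⟩
  have htrue : MidTrue (fieldF ρ) ρ Ψ ι π := hThin ρ Ψ ι hyp nf π hπ hmid
  have htrue' : MidTrue (fieldF ρ) ρ Ψ ι π' := hThin ρ Ψ ι hyp nf π' hπ' hmid'
  obtain ⟨B, hB, hagree⟩ := thin_places176 ρ _ _ htrue htrue'
  have hthin : ∃ A : Set (HeightOneSpectrum (𝓞 (fieldF ρ))), IsThinPlaces A ∧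
      ∀ v : HeightOneSpectrum (𝓞 (fieldF ρ)), v ∉ A → π.a v = π'.a v := by
    refine ⟨B, hB, fun v hv => ?_⟩
    obtain ⟨g, ⟨ha, -⟩, ⟨ha', -⟩⟩ := hagree v hv
    rw [ha, ha']
  exact hRigid (fieldF ρ) hcplx π π' hπ hπ' htriv htriv' hbound hthin

/-- **T7.07 from the dictionary leaf T7.06 of the same tower.** -/
theorem midUniqueFrom_of_dictFQ176 (hD : DictFQC) : MidUniqueFromC := by
  intro hThin hRigid ρ Ψ ι hyp nf
  have hTC : TotCplx (fieldF ρ) := (hD ρ Ψ ι hyp nf).1.2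
  intro π π' hπ hπ' hmid hmid'
  have htriv : TrivCentral π := trivCentral_of_midData176 ρ Ψ ι π hmid
  have htriv' : TrivCentral π' := trivCentral_of_midData176 ρ Ψ ι π' hmid'
  obtain ⟨S, hS⟩ := bound_of_midData176 ρ Ψ hyp.lift ι π hmid
  obtain ⟨S', hS'⟩ := bound_of_midData176 ρ Ψ hyp.lift ι π' hmid'
  have hbound : ∃ T : Finset (HeightOneSpectrum (𝓞 (fieldF ρ))),
      ∀ v : HeightOneSpectrum (𝓞 (fieldF ρ)), v ∉ T → ‖π.a v‖ ≤ 2 ∧ ‖π'.a v‖ ≤ 2 := by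
    classical
    refine ⟨S ∪ S', fun v hv => ?_⟩
    rw [Finset.mem_union, not_or] at hv
    exact ⟨hS v hv.1, hS' v hv.2⟩
  have htrue : MidTrue (fieldF ρ) ρ Ψ ι π := hThin ρ Ψ ι hyp nf π hπ hmid
  have htrue' : MidTrue (fieldF ρ) ρ Ψ ι π' := hThin ρ Ψ ι hyp nf π' hπ' hmid'
  obtain ⟨B, hB, hagree⟩ := thin_places176 ρ _ _ htrue htrue'
  have hthin : ∃ A : Set (HeightOneSpectrum (𝓞 (fieldF ρ))), IsThinPlaces A ∧
      ∀ v : HeightOneSpectrum (𝓞 (fieldF ρ)), v ∉ A → π.a v = π'.a v := by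
    refine ⟨B, hB, fun v hv => ?_⟩
    obtain ⟨g, ⟨ha, -⟩, ⟨ha', -⟩⟩ := hagree v hv
    rw [ha, ha']
  exact hRigid (fieldF ρ) hTC π π' hπ hπ' htriv htriv' hbound hthin

/-- **LEAF T7.07 `MidUniqueFromC`** (proof of helper176, re-based on Spec v1.2). -/
theorem midUniqueFromC231 : MidUniqueFromC :=
  midUniqueFrom_of_totCplx176 fun ρ _ hyp nf => totCplx_fieldF176 ρ hyp.det nf

end Fermat.Agent.LT.T7.H231.R176

end
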