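import Mathlib
import Fermat.Agent.LT.T7.H62.RigidAut
import Fermat.Agent.LT.T5.H62.FrameExists
import Fermat.Agent.LT.T1.Closed
import Fermat.Agent.LT.T7.H954.PlaceSum
import Fermat.Agent.LT.T7.H27.EulerLog
import Fermat.Agent.LT.T7.H362.Abel
import Fermat.Agent.LT.T7.H250.NormPos
import Fermat.Agent.LT.T7.H555.Orth

/-!
# Row LT, tower T7, node T7.14 `RigidAll`: INTEGRATION of the closed leaves (helper231)

OFF-MAIN.  The cut is the sub-architect's (helper62: `RigidSpec.lean` a87f852b, `RigidPkg.lean`
a2b090c0, `RigidAut.lean` e1add0c1; `rigidC_of_aut`).  This file imports byte-identical copies of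
the volunteers' files in ONE closure and discharges the closed leaves.

| leaf | registry | state |
|---|---|---|
| frame (`∃ μ F, T5.IsFrame μ F`) | -- | CLOSED: `T1/Closed.lean` (helper54 `t1Out`) + `T5/H62/FrameExists.lean` (helper62) |
| T7.14.0 `PlaceSumC` | 1231 | CLOSED helper954 `placeSumC954` |
| T7.14.1 `EulerLogC` | 1357 / 1614 | CLOSED helper27 `eulerLogC27` |
| T7.14.2 `AbelC` | 1358 | CLOSED helper362 `abelC362` |
| T7.14.5 `NormPosC` | 1521 | CLOSED helper250 `normPosC250` |
| T7.14.3 `CountC` | 1519 | OPEN (helper671; sub-leaves 1656, 1657) |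
| T7.14.4 `OrthC` | 1520 | CLOSED helper555 `orthC555` (15:07Z; second proof helper878 `orthC878`) |
| T7.14.6 `StripC` (node) | 1522 | OPEN (helper62) |
-/

set_option autoImplicit false

open MeasureTheory

namespace Fermat.Agent.LT.T7.H231

open Fermat.Agent.LT.T7

attribute [local instance] Fermat.Agent.LT.T5.instMeasurableSpaceG

/-- A frame exists for every number field (T1 is closed). -/
theorem frame_exists231 (K : Type) [Field K] [NumberField K] :
    ∃ (μ : Measure (Fermat.Agent.LT.H556.A0.G K)) (F : Set (Fermat.Agent.LT.H556.A0.G K)),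
      Fermat.Agent.LT.T5.IsFrame μ F := by
  obtain ⟨μ, F, _, hF, _, _⟩ :=
    Fermat.Agent.LT.T5.H62.frame_exists_of_T1Out62 K ⊤ (Fermat.Agent.LT.T1.t1Out K)
  exact ⟨μ, F, hF⟩

/-- THE OPEN PART of node T7.14: the leaves still to be proved. -/
structure RigidOpen231 : Prop where
  /-- NODE T7.14.6: the strip identity. -/
  strip : ∀ (K : Type) [Field K] [NumberField K], Rigid.StripC K
  /-- LEAF T7.14.3: points of `ℙ¹(K)` of bounded twisted height. -/
  count : ∀ (K : Type) [Field K] [NumberField K], Rigid.CountC K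
  /-- LEAF T7.14.4: Hecke orthogonality on the frame. -/
  orth : ∀ (K : Type) [Field K] [NumberField K], Rigid.OrthC K

/-- STATE OF THE NODE: `T7.RigidAll` from its three open leaves. -/
theorem rigidAll_of_open231 (O : RigidOpen231) : RigidAll := fun K _ _ =>
  Rigid.rigidC_of_aut (frame_exists231 K) (Fermat.Agent.LT.T7.H954.placeSumC954 K)
    (Fermat.Agent.LT.T7.H27.eulerLogC27 K) (Fermat.Agent.LT.T7.H362.abelC362 K) (O.strip K)
    (O.count K) (O.orth K) (Fermat.Agent.LT.T7.H250.normPosC250 K)

/-- `OrthC` is closed (helper555). -/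
theorem orthC_closed231 (K : Type) [Field K] [NumberField K] : Rigid.OrthC K :=
  Fermat.Agent.LT.T7.H555.orthC555 K

/-- STATE OF THE NODE (15:15Z): `T7.RigidAll` from the node `StripC` and the leaf `CountC`. -/
theorem rigidAll_of231 (hStrip : ∀ (K : Type) [Field K] [NumberField K], Rigid.StripC K)
    (hCount : ∀ (K : Type) [Field K] [NumberField K], Rigid.CountC K) : RigidAll :=
  rigidAll_of_open231 ⟨hStrip, hCount, orthC_closed231⟩

end Fermat.Agent.LT.T7.H231
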