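import Mathlib
import Fermat.Agent.LT.T7.H62.RigidPlug2
import Fermat.Agent.LT.T7.H550.TorusAsm

/-!
# Row LT, tower T7, node T7.14 `RigidAll`: STATE on the cut of helper62 (helper231, integration)

OFF-MAIN, ADDITIVE.  The plug is the sub-architect's (`LT/T7/H62/RigidPlug2.lean`, sha256
dec298db74c9d3d2, helper62@714b82ce7: `rigidAll_of_open62b`, five open leaves).  This file
discharges `TorusAsmC` (helper550 `torusAsmC550`) in the same closure.

OPEN = the four leaves `CountC` (row 1519), `FoldWhitC` (row 1717), `IdeleSumC` (row 1720),
`LocC` (row 1829).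
-/

set_option autoImplicit false

namespace Fermat.Agent.LT.T7.H231

open Fermat.Agent.LT.T7

/-- The open leaves of node T7.14 on the cut of helper62 (levels 4 and 5), for one field. -/
structure RigidState231 (K : Type) [Field K] [NumberField K] : Prop where
  /-- T7.14.3 (row 1519): points of `ℙ¹(K)` of bounded twisted height. -/
  count : Rigid.CountC K
  /-- T7.14.6a (row 1717): folding and Whittaker expansion. -/
  foldWhit : Rigid.FoldWhitC K
  /-- T7.14.6c (row 1720): the integral over the ideles as a smoothed sum over ideals. -/
  ideleSum : Rigid.IdeleSumC K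
  /-- T7.14.6b.1 (row 1829): localisation at `S`. -/
  loc : Rigid.LocC K

/-- `T7.RigidC K` from the four open leaves. -/
theorem rigidC_of_state231 (K : Type) [Field K] [NumberField K] (h : RigidState231 K) :
    RigidC K :=
  Rigid.rigidC_of_open62b K
    ⟨h.count, h.foldWhit, h.ideleSum, h.loc, Fermat.Agent.LT.T7.H550.torusAsmC550 K⟩

/-- **`T7.RigidAll` from the four open leaves, for every number field.** -/
theorem rigidAll_of_state231
    (h : ∀ (K : Type) [Field K] [NumberField K], RigidState231 K) : RigidAll :=
  fun K _ _ => rigidC_of_state231 K (h K)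

end Fermat.Agent.LT.T7.H231
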