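import Mathlib
import Fermat.Agent.LT.T7.Spec
import Fermat.Agent.LT.T7.H496.Twist
import Fermat.Agent.LT.T7.H621.ConjTop
import Fermat.Agent.LT.T7.H557.DescTriv
import Fermat.Agent.LT.T7.H922.DictFQ
import Fermat.Agent.LT.T7.H820.MidStable
import Fermat.Agent.LT.T7.H546.Sqrt
import Fermat.Agent.LT.T7.H231.MidStable
import Fermat.Agent.LT.T7.H231.MidStableU
import Fermat.Agent.LT.T7.H231.DictEF
import Fermat.Agent.LT.T7.H231.MidUniqueR
import Fermat.Agent.LT.T7.EK
import Fermat.Agent.LT.T7.Reg
import Fermat.Agent.LT.T7.H309.Sep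
import Fermat.Agent.LT.T7.H37.ThinClosed
import Fermat.Agent.LT.T7.H96.EKCheb
import Fermat.Agent.LT.T7.H231.RigidClosed
import Fermat.Agent.LT.T7.EKM
import Fermat.Agent.LT.T7.H496.ExpSep
import Fermat.Agent.LT.T7.H37.ThinNode
import Fermat.Agent.LT.T7.H37.ThinDone
import Fermat.Agent.LT.T7.H619.EKMLeaves
import Fermat.Agent.LT.CFT.H881.ChebK
import Fermat.Agent.LT.T7.Matching
import Fermat.Agent.LT.T7.H32.Geom
import Fermat.Agent.LT.T7.H231.Level2Closed
import Fermat.Agent.LT.T7.H231.RigidState

/-!
# Row LT, tower T7: INTEGRATION CANDIDATE of the closed leaves (helper231, for architect helper797)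

OFF-MAIN.  Pattern of the row-lead (`LT/T1/Closed.lean` of helper54): this file imports
byte-identical copies of the volunteers' files in ONE closure and discharges the closed leaves of
`T7.top` (`LT/T7/Spec.lean`, v1.2, sha256 76a196044a64b920, helper797@d4e07e123).

| leaf | closed by |
|---|---|
| T7.01 `TwistAll` | helper496 `twistAll496` |
| T7.02 `ConjAll` | helper621 `conjAll621` (sub-leaves 637, 362, 621, 122, 584; adelic automorphism 930) |
| T7.03 `DescTrivFromC` | helper557 `descTrivFromC_557` |
| T7.04 `MidStableFromC` (leaf of `top'` only) | helper231 `midStableFromC231` |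
| T7.05 `DictEFC` | helper231 `dictEFC231` (spare proof; the claim of row 881 is helper622's) |
| T7.06 `DictFQC` | helper922 `dictFQC922` |
| T7.07 `MidUniqueFromC` | helper176 (proof), re-based copy on Spec v1.2 `R176.midUniqueFromC231` |
| T7.08 `MidStableFromUniqueC` | helper820 `midStableFromUniqueC820` (second proof: helper231 `midStableFromUniqueC231`) |
| T7.09 `SqrtC` | helper546 `sqrtC_h546` |
| T7.C4 `SepAll` (leaf of `Comparison.lean`) | helper309 `sepAll309` |
| T7.13 `ThinC` (node) | helper37 `H37.thin_of_open'` : `H37.ThinOpen → SqrtC → ThinC`, 8 of its 10 leaves closed |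
| T7.14 `RigidAll` (node) | cut of helper62; `rigidAll_of_open231` (`RigidClosed.lean`): frame, `PlaceSumC` 954, `EulerLogC` 27, `AbelC` 362, `NormPosC` 250 closed |
| T7.15 `SeedEKC`, T7.16 `MidEKC` | helper96 `seedEKC_of96`, `midEKC_of96` : `CFT.OddRayChebC → SqrtC → …` (dictionary) |

ALL LEAVES OF `T7/Spec.lean` ARE CLOSED, and so is `SepAll`.

THE TOP THAT IS USED = `T7.topReg` (`T7/Reg.lean`, sha256 d3ff893f1400169d, helper797@b38c7aa5e):
`topReg_of_open231 : OpenReg231 → A3c_556 ∧ A3q_556`, and `OpenReg231` = what is STILL OPEN =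
* NODES `TraceWordsRegAll`, `TraceWordsQRegAll` (T7.C3-REG, T7.C3Q-REG), `RigidAll` (T7.14);
* the two open leaves of node T7.13: `ChebFC` (T7.13c), `SqMass468C` (T7.13i / row 1353);
* LEAVES `ExpSepC` (T7.C7), `SeedEKC` (T7.15), `MidEKC` (T7.16).

| T7.C7 `ExpSepC` (leaf of `Reg.lean`) | helper496 `expSepC496` |
| T7.13c `ChebFC` | helper341 `chebFC341` (through `H37/ThinNode.lean`) |
| T7.13 `ThinC` (NODE, CLOSED 15:04Z) | helper37 `thinC37` (`H37/ThinDone.lean` 7f0bb211; `HoroCoeffFC` helper768) |
| T7.15M `SeedEKMC`, T7.16M `MidEKMC` (leaves of `EKM.lean`) | helper619 `seedEKMC619`, `midEKMC619` |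
| T7.14.4 `OrthC` | helper555 `orthC555` (in `RigidClosed.lean`) |
| CFT.17 `ChebKC` | helper881 `chebKC881` |
| T7.G1 `GeomC` (leaf of `Matching.lean` 0549163e) | helper32 `geomC32` |
| `SpecIdC` (`Matching.lean`) | helper32 `specIdC32` + T6 `NormClassC` 981, `NormInjC` 848 (`Level2Closed.lean`) |

NODE T7.14 on the cut of helper62 (`RigidPlug2.lean` dec298db, helper62@714b82ce7; `RigidState.lean`):
`rigidAll_of_state231`, open = `CountC`, `FoldWhitC`, `IdeleSumC`, `LocC`; closed there: `OrthC` 555,
`WeightC` 179, `MixC` 267, `ArchUniqC` 724, `HeckeRecC` 941, `WhitInheritC` 878, `TorusAsmC` 550.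
**CURRENT FINEST STATE = `topB_state231`** (route (B)).

LEVEL 2 of the cyclic node (`T7/Level2.lean` 15516646, helper797@819237e8b):
`TraceWordsRegPAll P ⇐ Level2Open231 P` = the three nodes `SupplyC P`, `SpecUpC`, `SpecDownC`
(`traceWordsRegPAll_of_level2_231`); `topB_level2_231`, `a3c_level2_231`.

FINEST STATE (everything that is closed discharged, ONE closure), TWO ROUTES for the EK
condition (`T7/EKM.lean`, sha256 4b09755e2c75eed5, helper797@cb30661f3):

* route (B), multi-place `GoodEKM` (NO leaf of class field theory left):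
  `topB231 : OpenB231 → A3c_556 ∧ A3q_556`, `OpenB231` =
  NODES `TraceWordsRegPAll ekMulti`, `TraceWordsQRegPAll ekMulti`, `Rigid.StripC` (T7.14.6);
  LEAF `Rigid.CountC` (T7.14.3).
* route (A), single-place `GoodEK`:  `topA231 : OpenA231 → A3c_556 ∧ A3q_556`, `OpenA231` =
  NODES `TraceWordsRegAll`, `TraceWordsQRegAll`, `Rigid.StripC`;
  LEAVES `Rigid.CountC`, `CFT.ExistOddC` (CFT.16, sub-tower EX).

(`topReg_of_leaves231 : OpenLeaves231 → …` = the state of 14:58Z, kept.)

Earlier routes, kept: the EK route (`T7/EK.lean`, `OpenEK231`, `topEK_of_open231`), the route of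
Spec v1.2 (`T7.top`, `Open231` = nodes `DescAll`, `DescQ3All`, `ThinC`, `RigidAll`), the route
of Spec v0 (`T7.top'`, nodes `DescAll`, `FibreAll`, `DescQAll`, `top'_of_open231`).
-/

set_option autoImplicit false

namespace Fermat.Agent.LT.T7.H231

open Fermat.Agent.LT.H556

/-- The NODES of tower T7 that are still open (Spec v1.2, route of `T7.top`); no leaf is open. -/
structure Open231 : Prop where
  /-- NODE (T7.10): cyclic descent of degree 3, comparison of trace formulas. -/
  desc : DescAll
  /-- NODE (T7.12): quadratic descent to `ℚ` for the fields containing `√-3`. -/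
  descQ3 : DescQ3All
  /-- NODE (T7.13): mass bound over `F`. -/
  thin : ThinC
  /-- NODE (T7.14): rigidity outside a thin set. -/
  rigid : RigidAll

/-- The leaves of tower T7 that are closed, in one closure. -/
structure Closed231 : Prop where
  twist : TwistAll
  conj : ConjAll
  descTrivFrom : DescTrivFromC
  midStableFrom : MidStableFromC
  dictEF : DictEFC
  dictFQ : DictFQC
  midUniqueFrom : MidUniqueFromC
  midStableFromUnique : MidStableFromUniqueC
  sqrt : SqrtC
  sep : SepAll

/-- All nine leaves of `T7/Spec.lean` and the leaf `SepAll` of `T7/Comparison.lean` are closed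
(unconditionally). -/
theorem closed231 : Closed231 where
  twist := Fermat.Agent.LT.T7.H496.twistAll496
  conj := Fermat.Agent.LT.T7.H621.conjAll621
  descTrivFrom := Fermat.Agent.LT.T7.H557.descTrivFromC_557
  midStableFrom := midStableFromC231
  dictEF := dictEFC231
  dictFQ := Fermat.Agent.LT.T7.H922.dictFQC922
  midUniqueFrom := R176.midUniqueFromC231
  midStableFromUnique := Fermat.Agent.LT.T7.H820.midStableFromUniqueC820
  sqrt := Fermat.Agent.LT.T7.H546.sqrtC_h546
  sep := Fermat.Agent.LT.T7.H309.sepAll309

/-- **Tower T7 from its open leaves**: the two descent leaves of the frozen wall, VERBATIM. -/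
theorem top_of_open231 (h : Open231) : WT.A3c_556 ∧ WT.A3q_556 :=
  Fermat.Agent.LT.T7.top h.desc h.descQ3 h.thin h.rigid closed231.twist closed231.conj
    closed231.descTrivFrom closed231.midUniqueFrom closed231.midStableFromUnique closed231.dictEF
    closed231.dictFQ closed231.sqrt

/-- The same through the second proof of T7.08 (helper231). -/
theorem top_of_open231' (h : Open231) : WT.A3c_556 ∧ WT.A3q_556 :=
  Fermat.Agent.LT.T7.top h.desc h.descQ3 h.thin h.rigid closed231.twist closed231.conj
    closed231.descTrivFrom closed231.midUniqueFrom midStableFromUniqueC231 closed231.dictEF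
    closed231.dictFQ closed231.sqrt

/-- The route of Spec v0 (`T7.top'`, through the general fibre theorem): ALL leaves are closed,
open there are only the three nodes `DescAll`, `FibreAll`, `DescQAll`. -/
theorem top'_of_open231 (hDesc : DescAll) (hFib : FibreAll) (hDescQ : DescQAll) :
    WT.A3c_556 ∧ WT.A3q_556 :=
  Fermat.Agent.LT.T7.top' hDesc hFib hDescQ closed231.twist closed231.conj
    closed231.descTrivFrom closed231.midStableFrom closed231.dictEF closed231.dictFQ

/-- `MidUniqueC` and `MidStableC` from the two nodes `ThinC`, `RigidAll`. -/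
theorem midStable_of_nodes231 (hThin : ThinC) (hRigid : RigidAll) : MidUniqueC ∧ MidStableC :=
  ⟨closed231.midUniqueFrom hThin hRigid,
    closed231.midStableFromUnique (closed231.midUniqueFrom hThin hRigid) closed231.conj⟩

/-- `A3c_556` alone needs only the cubic descent node `DescAll`. -/
theorem a3c_of_desc231 (hDesc : DescAll) : WT.A3c_556 :=
  Fermat.Agent.LT.T7.a3c_of closed231.dictEF (closed231.descTrivFrom hDesc closed231.twist)

/-! ## The EK route (`T7/EK.lean`, sha256 8051060af9f5d042): the top that is USED -/

/-- What is still open on the EK route: the four NODES `TraceWordsEKAll`, `TraceWordsQEKAll`,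
`ThinC`, `RigidAll` and the two LEAVES `SeedEKC` (T7.15), `MidEKC` (T7.16). -/
structure OpenEK231 : Prop where
  /-- NODE: trace identity for words, cyclic case (T4/T5/T6 -> T7). -/
  traceWords : TraceWordsEKAll
  /-- NODE: trace identity for words, quadratic descent to `ℚ`. -/
  traceWordsQ : TraceWordsQEKAll
  /-- NODE (T7.13): mass bound over `F`. -/
  thin : ThinC
  /-- NODE (T7.14): rigidity outside a thin set. -/
  rigid : RigidAll
  /-- LEAF T7.15: good EK places for the seed over `E`. -/
  seedEK : SeedEKC
  /-- LEAF T7.16: good EK places for `MidData` over `F`. -/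
  midEK : MidEKC

/-- **Tower T7 along the EK route from what is still open**: the two descent leaves of the
frozen wall, VERBATIM. -/
theorem topEK_of_open231 (h : OpenEK231) : WT.A3c_556 ∧ WT.A3q_556 :=
  Fermat.Agent.LT.T7.topEK h.traceWords h.traceWordsQ closed231.sep h.seedEK h.midEK h.thin h.rigid
    closed231.twist closed231.conj closed231.midUniqueFrom closed231.midStableFromUnique
    closed231.dictEF closed231.dictFQ closed231.sqrt

/-- `A3c_556` along the EK route: open are `TraceWordsEKAll`, `SeedEKC`. -/
theorem a3c_ofEK_open231 (hTW : TraceWordsEKAll) (hSeed : SeedEKC) :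
    WT.A3c_556 :=
  Fermat.Agent.LT.T7.a3c_ofEK closed231.dictEF hSeed
    (Fermat.Agent.LT.T7.descTrivEKAll_of (Fermat.Agent.LT.T7.descEKAll_of hTW closed231.sep)
      closed231.twist)

/-! ## The regular route (`T7/Reg.lean`, sha256 d3ff893f1400169d): the top that is USED -/

/-- Node T7.13 from its two open leaves (helper37 `ThinClosed.lean`, sha256 ef91f9cc03d7a40f). -/
theorem thin_of_open231 (O : Fermat.Agent.LT.T7.H37.ThinOpen) : ThinC :=
  Fermat.Agent.LT.T7.H37.thin_of_open O closed231.dictFQ closed231.sqrt

/-- What is still open on the regular route: the three NODES `TraceWordsRegAll`,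
`TraceWordsQRegAll`, `RigidAll`, the two open leaves of node T7.13 (`ChebFC`, `SqMass468C`) and
the three LEAVES `ExpSepC` (T7.C7), `SeedEKC` (T7.15), `MidEKC` (T7.16). -/
structure OpenReg231 : Prop where
  /-- NODE T7.C3-REG: regular trace identity for words, cyclic case. -/
  traceWordsReg : TraceWordsRegAll
  /-- NODE T7.C3Q-REG: regular trace identity for words, quadratic descent to `ℚ`. -/
  traceWordsQReg : TraceWordsQRegAll
  /-- NODE (T7.14): rigidity outside a thin set. -/
  rigid : RigidAll
  /-- The open leaves of NODE T7.13: `ChebFC` (T7.13c) and `SqMass468C` (T7.13i). -/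
  thin : Fermat.Agent.LT.T7.H37.ThinOpen
  /-- LEAF T7.C7: linear independence of characters at the regular place. -/
  expSep : ExpSepC
  /-- LEAF T7.15: good EK places for the seed over `E`. -/
  seedEK : SeedEKC
  /-- LEAF T7.16: good EK places for `MidData` over `F`. -/
  midEK : MidEKC

/-- **Tower T7 along the regular route from what is still open**: the two descent leaves of the
frozen wall, VERBATIM. -/
theorem topReg_of_open231 (h : OpenReg231) : WT.A3c_556 ∧ WT.A3q_556 :=
  Fermat.Agent.LT.T7.topReg h.traceWordsReg h.traceWordsQReg h.expSep closed231.sep h.seedEK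
    h.midEK (thin_of_open231 h.thin) h.rigid closed231.twist closed231.conj
    closed231.midUniqueFrom closed231.midStableFromUnique closed231.dictEF closed231.dictFQ
    closed231.sqrt

/-- The EK route from the regular route. -/
theorem openEK_of_openReg231 (h : OpenReg231) : OpenEK231 where
  traceWords := Fermat.Agent.LT.T7.traceWordsEKAll_of_reg h.traceWordsReg h.expSep
  traceWordsQ := Fermat.Agent.LT.T7.traceWordsQEKAll_of_reg h.traceWordsQReg h.expSep
  thin := thin_of_open231 h.thin
  rigid := h.rigid
  seedEK := h.seedEK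
  midEK := h.midEK

/-- `A3c_556` along the regular route: open are `TraceWordsRegAll`, `ExpSepC`, `SeedEKC`. -/
theorem a3c_ofReg_open231 (hTW : TraceWordsRegAll) (hExp : ExpSepC) (hSeed : SeedEKC) :
    WT.A3c_556 :=
  a3c_ofEK_open231 (Fermat.Agent.LT.T7.traceWordsEKAll_of_reg hTW hExp) hSeed

/-! ## The finest state: every closed leaf of the sub-towers discharged -/

/-- `SeedEKC` and `MidEKC` from the two open leaves of CFT (dictionary of helper96). -/
theorem goodEK_of_cft231 (hex : Fermat.Agent.LT.CFT.ExistOddC)
    (hcheb : Fermat.Agent.LT.CFT.ChebKC) : SeedEKC ∧ MidEKC :=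
  ⟨Fermat.Agent.LT.T7.H96.seedEKC_of96 (Fermat.Agent.LT.CFT.oddRayCheb_of_leaves hex hcheb)
      closed231.sqrt,
    Fermat.Agent.LT.T7.H96.midEKC_of96 (Fermat.Agent.LT.CFT.oddRayCheb_of_leaves hex hcheb)
      closed231.sqrt⟩

/-- EVERYTHING that is still open in tower T7 (regular route), sub-towers included: three NODES
(`TraceWordsRegAll`, `TraceWordsQRegAll`, `Rigid.StripC`) and seven LEAVES. -/
structure OpenLeaves231 : Prop where
  /-- NODE T7.C3-REG: regular trace identity for words, cyclic case. -/
  traceWordsReg : TraceWordsRegAll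
  /-- NODE T7.C3Q-REG: regular trace identity for words, quadratic descent to `ℚ`. -/
  traceWordsQReg : TraceWordsQRegAll
  /-- Node T7.14: NODE `StripC` (T7.14.6), LEAVES `CountC` (T7.14.3), `OrthC` (T7.14.4). -/
  rigid : RigidOpen231
  /-- Node T7.13: LEAVES `ChebFC` (T7.13c) and `SqMass468C` (T7.13i). -/
  thin : Fermat.Agent.LT.T7.H37.ThinOpen
  /-- LEAF T7.C7: linear independence of characters at the regular place. -/
  expSep : ExpSepC
  /-- LEAF CFT.16: existence at 2 (odd ray class order of split primes). -/
  existOdd : Fermat.Agent.LT.CFT.ExistOddC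
  /-- LEAF CFT.17: Chebotarev for `G_K`. -/
  chebK : Fermat.Agent.LT.CFT.ChebKC

/-- The regular route from the finest state. -/
theorem openReg_of_leaves231 (h : OpenLeaves231) : OpenReg231 where
  traceWordsReg := h.traceWordsReg
  traceWordsQReg := h.traceWordsQReg
  rigid := rigidAll_of_open231 h.rigid
  thin := h.thin
  expSep := h.expSep
  seedEK := (goodEK_of_cft231 h.existOdd h.chebK).1
  midEK := (goodEK_of_cft231 h.existOdd h.chebK).2

/-- **Tower T7 from EVERYTHING that is still open**: the two descent leaves of the frozen wall,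
VERBATIM. -/
theorem topReg_of_leaves231 (h : OpenLeaves231) : WT.A3c_556 ∧ WT.A3q_556 :=
  topReg_of_open231 (openReg_of_leaves231 h)

/-! ## The two routes of `T7/EKM.lean`, with `ExpSepC` and `ChebFC` discharged -/

/-- `ExpSepC` is closed (helper496). -/
theorem expSep_closed231 : ExpSepC := Fermat.Agent.LT.T7.H496.expSepC496

/-- Node T7.13 from its ONE open leaf (helper37 `ThinNode.lean`, `ChebFC` of helper341). -/
theorem thin_of_sqMass231 (h : Fermat.Agent.LT.T7.H37.SqMass468C) : ThinC :=
  Fermat.Agent.LT.T7.H37.thinC_of_sqMass37 h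

/-- Node T7.13 `ThinC` is CLOSED (helper37 `ThinDone.lean`). -/
theorem thin_closed231 : ThinC := Fermat.Agent.LT.T7.H37.thinC37

/-- `MidUniqueC` and `MidStableC` from the ONE node `RigidAll`. -/
theorem midStable_of_rigid231 (hRigid : RigidAll) : MidUniqueC ∧ MidStableC :=
  midStable_of_nodes231 thin_closed231 hRigid

/-- ROUTE (A): everything that is still open with the single-place EK condition. -/
structure OpenA231 : Prop where
  /-- NODE T7.C3-REG: regular trace identity for words, cyclic case. -/
  traceWordsReg : TraceWordsRegAll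
  /-- NODE T7.C3Q-REG: regular trace identity for words, quadratic descent to `ℚ`. -/
  traceWordsQReg : TraceWordsQRegAll
  /-- NODE T7.14.6: the strip identity. -/
  strip : ∀ (K : Type) [Field K] [NumberField K], Rigid.StripC K
  /-- LEAF T7.14.3: points of `ℙ¹(K)` of bounded twisted height. -/
  count : ∀ (K : Type) [Field K] [NumberField K], Rigid.CountC K
  /-- LEAF CFT.16: existence at 2 (odd ray class order of split primes). -/
  existOdd : Fermat.Agent.LT.CFT.ExistOddC

/-- The state of 14:58Z from route (A). -/
theorem openLeaves_of_A231 (h : OpenA231) : OpenLeaves231 where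
  traceWordsReg := h.traceWordsReg
  traceWordsQReg := h.traceWordsQReg
  rigid := ⟨h.strip, h.count, orthC_closed231⟩
  thin := Fermat.Agent.LT.T7.H37.thinOpen_of_sqMass37
    Fermat.Agent.LT.T7.H37.sqMass468C_closed37
  expSep := expSep_closed231
  existOdd := h.existOdd
  chebK := Fermat.Agent.LT.CFT.H881.chebKC881

/-- **Tower T7, route (A)**: the two descent leaves of the frozen wall, VERBATIM. -/
theorem topA231 (h : OpenA231) : WT.A3c_556 ∧ WT.A3q_556 :=
  topReg_of_leaves231 (openLeaves_of_A231 h)

/-- ROUTE (B): everything that is still open with the multi-place EK condition. -/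
structure OpenB231 : Prop where
  /-- NODE T7.C3-REG for `GoodEKM`. -/
  traceWordsRegM : TraceWordsRegPAll ekMulti
  /-- NODE T7.C3Q-REG for `GoodEKM`. -/
  traceWordsQRegM : TraceWordsQRegPAll ekMulti
  /-- NODE T7.14.6: the strip identity. -/
  strip : ∀ (K : Type) [Field K] [NumberField K], Rigid.StripC K
  /-- LEAF T7.14.3: points of `ℙ¹(K)` of bounded twisted height. -/
  count : ∀ (K : Type) [Field K] [NumberField K], Rigid.CountC K

/-- **Tower T7, route (B)**: the two descent leaves of the frozen wall, VERBATIM. -/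
theorem topB231 (h : OpenB231) : WT.A3c_556 ∧ WT.A3q_556 :=
  Fermat.Agent.LT.T7.topRegM h.traceWordsRegM h.traceWordsQRegM expSep_closed231 closed231.sep
    Fermat.Agent.LT.T7.H619.seedEKMC619 Fermat.Agent.LT.T7.H619.midEKMC619 thin_closed231
    (rigidAll_of231 h.strip h.count)
    closed231.twist closed231.conj closed231.midUniqueFrom closed231.midStableFromUnique
    closed231.dictEF closed231.dictFQ closed231.sqrt

/-- Route (B) with the node `RigidAll` as ONE hypothesis (for the sub-architect's own top of
T7.14). -/
theorem topB_of_rigid231 (hTW : TraceWordsRegPAll ekMulti) (hTWQ : TraceWordsQRegPAll ekMulti)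
    (hRigid : RigidAll) : WT.A3c_556 ∧ WT.A3q_556 :=
  Fermat.Agent.LT.T7.topRegM hTW hTWQ expSep_closed231 closed231.sep
    Fermat.Agent.LT.T7.H619.seedEKMC619 Fermat.Agent.LT.T7.H619.midEKMC619 thin_closed231
    hRigid closed231.twist closed231.conj closed231.midUniqueFrom closed231.midStableFromUnique
    closed231.dictEF closed231.dictFQ closed231.sqrt

/-- `A3c_556` alone along route (B): ONE node is open. -/
theorem a3c_B231 (hTW : TraceWordsRegPAll ekMulti) : WT.A3c_556 :=
  Fermat.Agent.LT.T7.a3c_ofP ekMulti closed231.dictEF Fermat.Agent.LT.T7.H619.seedEKMC619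
    (Fermat.Agent.LT.T7.descTrivEKPAll_of ekMulti
      (Fermat.Agent.LT.T7.descEKPAll_of ekMulti
        (Fermat.Agent.LT.T7.traceWordsEKPAll_of_reg ekMulti hTW expSep_closed231) closed231.sep)
      closed231.twist)

/-- **Route (B) on level 2 of the cyclic node**: open are the three nodes of `Level2.lean` (for
`GoodEKM`), the node `TraceWordsQRegPAll ekMulti`, the node `StripC` and the leaf `CountC`. -/
theorem topB_level2_231 (h2 : Level2Open231 ekMulti) (hTWQ : TraceWordsQRegPAll ekMulti)
    (hStrip : ∀ (K : Type) [Field K] [NumberField K], Rigid.StripC K)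
    (hCount : ∀ (K : Type) [Field K] [NumberField K], Rigid.CountC K) :
    WT.A3c_556 ∧ WT.A3q_556 :=
  topB231 ⟨traceWordsRegPAll_of_level2_231 ekMulti h2, hTWQ, hStrip, hCount⟩

/-- `A3c_556` from the three nodes of level 2 (route (B)): nothing else is open for the cubic
step. -/
theorem a3c_level2_231 (h2 : Level2Open231 ekMulti) : WT.A3c_556 :=
  a3c_B231 (traceWordsRegPAll_of_level2_231 ekMulti h2)

/-- **CURRENT FINEST STATE, route (B)** (state 15:55Z): open are the three nodes of level 2 of
the cyclic step, the node of the quadratic step, and the four open leaves of node T7.14 on the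
cut of helper62 (`CountC`, `FoldWhitC`, `IdeleSumC`, `LocC`). -/
theorem topB_state231 (h2 : Level2Open231 ekMulti) (hTWQ : TraceWordsQRegPAll ekMulti)
    (hR : ∀ (K : Type) [Field K] [NumberField K], RigidState231 K) :
    WT.A3c_556 ∧ WT.A3q_556 :=
  topB_of_rigid231 (traceWordsRegPAll_of_level2_231 ekMulti h2) hTWQ (rigidAll_of_state231 hR)

/-- `GeomC` (leaf T7.G1 of `Matching.lean`) is closed (helper32). -/
theorem geomC_closed231 (K K' : Type) [Field K] [NumberField K] [Field K'] [NumberField K']
    [Algebra K K'] : GeomC K K' :=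
  Fermat.Agent.LT.T7.H32.geomC32

/-- Mixed routes (`T7.topRegP`): any two EK conditions `P` (cubic step) and `Q` (quadratic
step). -/
theorem topP231 (P Q : EKCond) (hTW : TraceWordsRegPAll P) (hTWQ : TraceWordsQRegPAll Q)
    (hSeed : SeedP P) (hMid : MidP Q) (hR : RigidOpen231) : WT.A3c_556 ∧ WT.A3q_556 :=
  Fermat.Agent.LT.T7.topRegP P Q hTW hTWQ expSep_closed231 closed231.sep hSeed hMid
    thin_closed231 (rigidAll_of_open231 hR) closed231.twist closed231.conj
    closed231.midUniqueFrom closed231.midStableFromUnique closed231.dictEF closed231.dictFQ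
    closed231.sqrt

end Fermat.Agent.LT.T7.H231
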