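import Mathlib
import Fermat.Agent.LT.T7.H231.Closed
import Fermat.Agent.LT.T7.H62.RigidPlug6
import Fermat.Agent.LT.T7.H57.FoldClosed
import Fermat.Agent.LT.T7.H29.UpCore2
import Fermat.Agent.LT.T7.H826.Level2QClosed

/-!
# Row LT, tower T7 -- THE TOP ON THE NODES OF RECORD OF LEVEL 2 (integrator helper231), OFF-MAIN

ADDITIVE: nothing of `Closed.lean` is changed.  Forms of record = ruling of the architect
helper797 (15:58Z): the spectral half upstairs is proved ONCE, over `K'` alone (core of helper29,
`T7/H29/UpCore2.lean`), and serves the cubic step `E/F` and the quadratic step `F/ℚ`.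

    top_record231 : Record231 → WT.A3c_556 ∧ WT.A3q_556

`Record231` = SIX nodes:

* `SU736.SupplyCS ekMulti K K'`  (T7.L2.1, supplier helper893, glue helper732);
* `SpecDownC K K'`               (T7.L2.3, helper772 / helper534);
* `H29.ExpUpCoreC K'`, `H29.NonVanCoreC K'` (T7.L2.2 in core form, helper736 / helper561 / 29);
* `H29.SupplyQSC ekMulti F`      (T7.L2Q.1, helper60 / helper962 / helper732; T3.18R helper14);
* `L2Q.SpecDownQC F`             (T7.L2Q.3, helper140).

CLOSED and used here: `RigidAll` (`RigidPlug6` of helper62 + `FoldWhitC` of helper57), `SpecIdC`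
(helper32 + T6 981 / 848), `SpecIdQC` (helper826 / helper797), `ExpSepC`, `SepAll`, `SeedEKMC`,
`MidEKMC`, `ThinC` and the nine leaves of `T7/Spec.lean`.
-/

set_option autoImplicit false

namespace Fermat.Agent.LT.T7.H231

open Fermat.Agent.LT.H556
open Fermat.Agent.LT.T7

/-- **NODE T7.14 `RigidAll`, CLOSED** (sub-architect helper62, `RigidPlug6`; last leaf
`FoldWhitC` by helper57). -/
theorem rigidAll_closed231 : RigidAll :=
  Rigid.rigidAll_of_foldWhit62 (fun K _ _ => Fermat.Agent.LT.T7.H57.foldWhitC_closed57 K)

/-- **Route (B), `RigidAll` closed: TWO nodes are open** (the two trace identities). -/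
theorem topB_two231 (hTW : TraceWordsRegPAll ekMulti) (hTWQ : TraceWordsQRegPAll ekMulti) :
    WT.A3c_556 ∧ WT.A3q_556 :=
  topB_of_rigid231 hTW hTWQ rigidAll_closed231

/-- `A3q_556` alone: ONE node is open. -/
theorem a3q_two231 (hTWQ : TraceWordsQRegPAll ekMulti) : WT.A3q_556 :=
  Fermat.Agent.LT.T7.a3q_ofP ekMulti closed231.dictFQ closed231.sqrt
    Fermat.Agent.LT.T7.H619.midEKMC619
    (closed231.midStableFromUnique (closed231.midUniqueFrom thin_closed231 rigidAll_closed231)
      closed231.conj)
    (Fermat.Agent.LT.T7.descQ3EKPAll_of ekMulti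
      (Fermat.Agent.LT.T7.traceWordsQEKPAll_of_reg ekMulti hTWQ expSep_closed231)
      closed231.sep)

/-- The cubic node from the nodes of record: supply with base stability, the two core nodes
upstairs, the spectral side downstairs (`SpecIdC` is closed). -/
theorem traceWordsRegP_of_record231 (P : EKCond) (K K' : Type) [Field K] [NumberField K]
    [Field K'] [NumberField K'] [Algebra K K']
    (hS : SU736.SupplyCS P K K') (hE : H29.ExpUpCoreC K') (hN : H29.NonVanCoreC K')
    (hD : SpecDownC K K') : TraceWordsRegP P K K' :=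
  SU736.traceWordsRegP_ofS hS (H29.specUpCS_of_core (H29.specUpCoreSC_of hE hN)) hD
    (specIdC_closed231 K K')

/-- The quadratic node from the nodes of record (`SpecIdQC` is closed). -/
theorem traceWordsQRegP_of_record231 (P : EKCond) (F : Type) [Field F] [NumberField F]
    (hS : H29.SupplyQSC P F) (hE : H29.ExpUpCoreC F) (hN : H29.NonVanCoreC F)
    (hD : L2Q.SpecDownQC F) : TraceWordsQRegP P F :=
  H29.traceWordsQRegP_ofCore2 hS hE hN hD (L2Q.specIdQC_closed826 F)

/-- **THE OPEN PART OF TOWER T7 ON THE NODES OF RECORD** (route (B), state 17:00Z). -/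
structure Record231 : Prop where
  /-- NODE T7.L2.1: supply for the cubic step, with base stability -/
  supplyCS : ∀ (K K' : Type) [Field K] [NumberField K] [Field K'] [NumberField K']
    [Algebra K K'], SU736.SupplyCS ekMulti K K'
  /-- NODE T7.L2.3: the spectral side downstairs, cubic step -/
  specDown : ∀ (K K' : Type) [Field K] [NumberField K] [Field K'] [NumberField K']
    [Algebra K K'], SpecDownC K K'
  /-- NODE T7.L2.2.Ec: spectral expansion upstairs, core form (both steps) -/
  expUpCore : ∀ (K' : Type) [Field K'] [NumberField K'], H29.ExpUpCoreC K'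
  /-- NODE T7.L2.2.Nc: non-vanishing of the twisted trace, core form (both steps) -/
  nonVanCore : ∀ (K' : Type) [Field K'] [NumberField K'], H29.NonVanCoreC K'
  /-- NODE T7.L2Q.1: supply for the quadratic step, stable form -/
  supplyQS : ∀ (F : Type) [Field F] [NumberField F], H29.SupplyQSC ekMulti F
  /-- NODE T7.L2Q.3: the spectral side downstairs, quadratic step -/
  specDownQ : ∀ (F : Type) [Field F] [NumberField F], L2Q.SpecDownQC F

theorem traceWordsRegPAll_of_record231 (h : Record231) : TraceWordsRegPAll ekMulti :=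
  fun K K' _ _ _ _ _ =>
    traceWordsRegP_of_record231 ekMulti K K' (h.supplyCS K K') (h.expUpCore K')
      (h.nonVanCore K') (h.specDown K K')

theorem traceWordsQRegPAll_of_record231 (h : Record231) : TraceWordsQRegPAll ekMulti :=
  fun F _ _ =>
    traceWordsQRegP_of_record231 ekMulti F (h.supplyQS F) (h.expUpCore F) (h.nonVanCore F)
      (h.specDownQ F)

/-- **TOP OF TOWER T7 ON THE NODES OF RECORD.** -/
theorem top_record231 (h : Record231) : WT.A3c_556 ∧ WT.A3q_556 :=
  topB_two231 (traceWordsRegPAll_of_record231 h) (traceWordsQRegPAll_of_record231 h)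

/-- `A3c_556` from the cubic nodes of record alone. -/
theorem a3c_record231
    (hS : ∀ (K K' : Type) [Field K] [NumberField K] [Field K'] [NumberField K'] [Algebra K K'],
      SU736.SupplyCS ekMulti K K')
    (hD : ∀ (K K' : Type) [Field K] [NumberField K] [Field K'] [NumberField K'] [Algebra K K'],
      SpecDownC K K')
    (hE : ∀ (K' : Type) [Field K'] [NumberField K'], H29.ExpUpCoreC K')
    (hN : ∀ (K' : Type) [Field K'] [NumberField K'], H29.NonVanCoreC K') : WT.A3c_556 :=
  a3c_B231 (fun K K' _ _ _ _ _ =>
    traceWordsRegP_of_record231 ekMulti K K' (hS K K') (hE K') (hN K') (hD K K'))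

/-- `A3q_556` from the quadratic nodes of record alone. -/
theorem a3q_record231
    (hS : ∀ (F : Type) [Field F] [NumberField F], H29.SupplyQSC ekMulti F)
    (hD : ∀ (F : Type) [Field F] [NumberField F], L2Q.SpecDownQC F)
    (hE : ∀ (K' : Type) [Field K'] [NumberField K'], H29.ExpUpCoreC K')
    (hN : ∀ (K' : Type) [Field K'] [NumberField K'], H29.NonVanCoreC K') : WT.A3q_556 :=
  a3q_two231 (fun F _ _ =>
    traceWordsQRegP_of_record231 ekMulti F (hS F) (hE F) (hN F) (hD F))

end Fermat.Agent.LT.T7.H231
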